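/-
S52 / programme K (helper13): COMPOSITION OF TRANSFORMATION LAWS ("law for words").

`S52K3.KleinData` has a field `Γ : Set (V2 →ₗ[Qb] V2)` together with `inv_H`, `inv_T`, `cov_g`
and `law` for the elements of `Γ`.  The adapter instantiates `Γ` as the set of ALL linear maps
having these properties (plus "the law matrix has determinant `1` modulo `5`", needed by K5).
This file proves that this set is closed under composition, contains the identity (and `-1`,
`ζ`-scalings when the coordinate functions are suitably homogeneous), and that the law matrices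
compose like matrices.  The only subtlety is the transport along the equality of curves
`E_{γ v} = E_v`, which is done once and for all by `subst` in `ptEq_transport`.

Main declarations (namespace `Fermat.Agent.S52Top.LawComp`):

* `PreKlein` : the fields of `KleinData` that membership of `Γ` refers to;
* `PreKlein.LawAt γ a b c d` : the body of `KleinData.law` for fixed `a b c d`;
* `PreKlein.lawAt_comp` : composition of laws (matrix product);
* `PreKlein.Gam` : the set of all linear maps with the listed properties;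
* `PreKlein.one_mem_gam`, `PreKlein.comp_mem_gam`, `PreKlein.list_prod_mem_gam`,
  `PreKlein.closure_le_gam`;
* `PreKlein.Rest`, `PreKlein.toKleinData` : packaging into a `KleinData` with `Γ := Gam`.
-/
import Mathlib
import Fermat.Agent.S52K3.Iface

set_option autoImplicit false

open WeierstrassCurve WeierstrassCurve.Affine

namespace Fermat.Agent.S52Top.LawComp

open Fermat.Agent.S52K3

/-! ### Transport of `PtEq` along an equality of Klein curves -/

/-- Transport along `kleinCurve h' t' = kleinCurve h t`: if the points with coordinates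
`(x₁, y₁)`, `(x₂, y₂)` are `P₁`, `P₂` on the curve `(h, t)` and `(x, y)` is `a • (x₁,y₁) +
c • (x₂,y₂)` on the curve `(h', t')`, then `(x, y)` is `a • P₁ + c • P₂` on the curve `(h, t)`. -/
theorem ptEq_transport {h t h' t' : Qb} (hh : h' = h) (ht : t' = t) {x₁ y₁ x₂ y₂ x y : Qb}
    (n₁ : (kleinCurve h' t').Nonsingular x₁ y₁) (n₂ : (kleinCurve h' t').Nonsingular x₂ y₂)
    (a c : ℤ) {P₁ P₂ : (kleinCurve h t).Point}
    (h₁ : PtEq (kleinCurve h t) x₁ y₁ P₁) (h₂ : PtEq (kleinCurve h t) x₂ y₂ P₂)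
    (hx : PtEq (kleinCurve h' t') x y (a • Point.some x₁ y₁ n₁ + c • Point.some x₂ y₂ n₂)) :
    PtEq (kleinCurve h t) x y (a • P₁ + c • P₂) := by
  subst hh ht
  obtain ⟨m₁, rfl⟩ := h₁
  obtain ⟨m₂, rfl⟩ := h₂
  exact hx

/-- Composition of integer combinations. -/
theorem comb_comb {A : Type*} [AddCommGroup A] (Q R : A) (a c a' c' b' d' : ℤ) :
    (a' * a + b' * c) • Q + (c' * a + d' * c) • R =
      a • (a' • Q + c' • R) + c • (b' • Q + d' • R) := by
  module

/-- Coordinates determine the point. -/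
theorem ptEq_unique {W : Affine Qb} {x y : Qb} {P P' : W.Point} (h : PtEq W x y P)
    (h' : PtEq W x y P') : P = P' := by
  obtain ⟨n, rfl⟩ := h
  obtain ⟨n', rfl⟩ := h'
  rfl

theorem ptEq_some {W : Affine Qb} {x y : Qb} (n : W.Nonsingular x y) :
    PtEq W x y (Point.some x y n) := ⟨n, rfl⟩

/-- Negation in coordinates on a Klein curve (`a₁ = a₃ = 0`). -/
theorem ptEq_neg {h t x y : Qb} {P : (kleinCurve h t).Point} (hP : PtEq (kleinCurve h t) x y P) :
    PtEq (kleinCurve h t) x (-y) (-P) := by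
  obtain ⟨n, rfl⟩ := hP
  have hneg : (kleinCurve h t).negY x y = -y := by simp [negY, kleinCurve]
  have n' : (kleinCurve h t).Nonsingular x (-y) := by
    have := (nonsingular_neg (W' := kleinCurve h t) x y).mpr n
    rwa [hneg] at this
  refine ⟨n', ?_⟩
  rw [Point.neg_some]
  congr 1
  exact hneg.symm

/-! ### The relevant part of `KleinData` -/

/-- The fields of `S52K3.KleinData` that membership of `Γ` refers to. -/
structure PreKlein where
  H : V2 → Qb
  T : V2 → Qb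
  f : V2 → Qb
  g : V2 → V2
  xQ : V2 → Qb
  yQ : V2 → Qb
  xR : V2 → Qb
  yR : V2 → Qb
  rel : ∀ v : V2, T v ^ 2 + H v ^ 3 = 1728 * f v ^ 5
  nonsingQ : ∀ v : V2, f v ≠ 0 → (kleinCurve (H v) (T v)).Nonsingular (xQ v) (yQ v)
  nonsingR : ∀ v : V2, f v ≠ 0 → (kleinCurve (H v) (T v)).Nonsingular (xR v) (yR v)

namespace PreKlein

variable (P : PreKlein)

/-- The body of `KleinData.law` for fixed `a b c d`: `Q(γ v) = a Q(v) + c R(v)`,
`R(γ v) = b Q(v) + d R(v)` on `E_v` for all `v` with `f v ≠ 0`. -/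
def LawAt (γ : V2 → V2) (a b c d : ℤ) : Prop :=
  ∀ (v : V2) (hv : P.f v ≠ 0),
    PtEq (kleinCurve (P.H v) (P.T v)) (P.xQ (γ v)) (P.yQ (γ v))
      (a • (Point.some (P.xQ v) (P.yQ v) (P.nonsingQ v hv)) +
        c • (Point.some (P.xR v) (P.yR v) (P.nonsingR v hv))) ∧
    PtEq (kleinCurve (P.H v) (P.T v)) (P.xR (γ v)) (P.yR (γ v))
      (b • (Point.some (P.xQ v) (P.yQ v) (P.nonsingQ v hv)) +
        d • (Point.some (P.xR v) (P.yR v) (P.nonsingR v hv)))

variable {P}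

/-- If `γ` preserves `H` and `T` then `f (γ v) ≠ 0 ↔ f v ≠ 0` (Klein's relation). -/
theorem f_ne_zero_iff {γ : V2 → V2} (hH : ∀ v, P.H (γ v) = P.H v) (hT : ∀ v, P.T (γ v) = P.T v)
    (v : V2) : P.f (γ v) ≠ 0 ↔ P.f v ≠ 0 := by
  have h1 := P.rel (γ v)
  have h2 := P.rel v
  rw [hH, hT] at h1
  have h3 : P.f (γ v) ^ 5 = P.f v ^ 5 := by
    have : (1728 : Qb) * P.f (γ v) ^ 5 = 1728 * P.f v ^ 5 := by rw [← h1, ← h2]
    exact mul_left_cancel₀ (by norm_num) this
  constructor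
  · intro h hv
    rw [hv] at h3
    exact h (by simpa using h3)
  · intro h hv
    rw [hv] at h3
    exact h (by simpa using h3.symm)

theorem lawAt_id : P.LawAt id 1 0 0 1 := by
  intro v hv
  refine ⟨?_, ?_⟩
  · simpa using ptEq_some (P.nonsingQ v hv)
  · simpa using ptEq_some (P.nonsingR v hv)

/-- COMPOSITION OF LAWS.  If `γ'` has law `(a', b', c', d')` and preserves `H`, `T`, and `γ` has
law `(a, b, c, d)`, then `γ ∘ γ'` has the law given by the matrix product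
`[[a', b'], [c', d']] * [[a, b], [c, d]]`. -/
theorem lawAt_comp {γ γ' : V2 → V2} {a b c d a' b' c' d' : ℤ}
    (hH : ∀ v, P.H (γ' v) = P.H v) (hT : ∀ v, P.T (γ' v) = P.T v)
    (hγ : P.LawAt γ a b c d) (hγ' : P.LawAt γ' a' b' c' d') :
    P.LawAt (γ ∘ γ') (a' * a + b' * c) (a' * b + b' * d) (c' * a + d' * c) (c' * b + d' * d) := by
  intro v hv
  have hv' : P.f (γ' v) ≠ 0 := (f_ne_zero_iff hH hT v).mpr hv
  obtain ⟨hQ, hR⟩ := hγ (γ' v) hv'
  obtain ⟨hQ', hR'⟩ := hγ' v hv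
  have eQ := ptEq_transport (hH v) (hT v) (P.nonsingQ (γ' v) hv') (P.nonsingR (γ' v) hv') a c
    hQ' hR' hQ
  have eR := ptEq_transport (hH v) (hT v) (P.nonsingQ (γ' v) hv') (P.nonsingR (γ' v) hv') b d
    hQ' hR' hR
  refine ⟨?_, ?_⟩
  · rw [comb_comb]
    exact eQ
  · rw [comb_comb]
    exact eR

/-- Multiplicativity of the determinant of the law matrix. -/
theorem det_comp (a b c d a' b' c' d' : ℤ) :
    (a' * a + b' * c) * (c' * b + d' * d) - (a' * b + b' * d) * (c' * a + d' * c) =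
      (a' * d' - b' * c') * (a * d - b * c) := by
  ring

theorem det_comp_modEq {a b c d a' b' c' d' : ℤ} (h : a * d - b * c ≡ 1 [ZMOD 5])
    (h' : a' * d' - b' * c' ≡ 1 [ZMOD 5]) :
    (a' * a + b' * c) * (c' * b + d' * d) - (a' * b + b' * d) * (c' * a + d' * c) ≡ 1 [ZMOD 5] := by
  rw [det_comp]
  simpa using h'.mul h

variable (P)

/-- The set of ALL linear maps having the properties listed in `KleinData` for the elements of
`Γ`, with the extra requirement that the law matrix has determinant `1` modulo `5`. -/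
def Gam : Set (V2 →ₗ[Qb] V2) :=
  {γ | (∀ v, P.H (γ v) = P.H v) ∧ (∀ v, P.T (γ v) = P.T v) ∧ (∀ v, P.g (γ v) = γ (P.g v)) ∧
    ∃ a b c d : ℤ, a * d - b * c ≡ 1 [ZMOD 5] ∧ P.LawAt γ a b c d}

variable {P}

theorem mem_gam_iff {γ : V2 →ₗ[Qb] V2} :
    γ ∈ P.Gam ↔ (∀ v, P.H (γ v) = P.H v) ∧ (∀ v, P.T (γ v) = P.T v) ∧
      (∀ v, P.g (γ v) = γ (P.g v)) ∧
      ∃ a b c d : ℤ, a * d - b * c ≡ 1 [ZMOD 5] ∧ P.LawAt γ a b c d := Iff.rfl

theorem one_mem_gam : (1 : V2 →ₗ[Qb] V2) ∈ P.Gam := by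
  refine ⟨fun v => rfl, fun v => rfl, fun v => rfl, 1, 0, 0, 1, by norm_num, ?_⟩
  exact lawAt_id

theorem id_mem_gam : (LinearMap.id : V2 →ₗ[Qb] V2) ∈ P.Gam := one_mem_gam

/-- `Gam` is closed under composition. -/
theorem comp_mem_gam {γ γ' : V2 →ₗ[Qb] V2} (hγ : γ ∈ P.Gam) (hγ' : γ' ∈ P.Gam) :
    γ ∘ₗ γ' ∈ P.Gam := by
  obtain ⟨hH, hT, hg, a, b, c, d, hdet, hlaw⟩ := hγ
  obtain ⟨hH', hT', hg', a', b', c', d', hdet', hlaw'⟩ := hγ'
  refine ⟨fun v => ?_, fun v => ?_, fun v => ?_, _, _, _, _, det_comp_modEq hdet hdet', ?_⟩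
  · rw [LinearMap.comp_apply, hH, hH']
  · rw [LinearMap.comp_apply, hT, hT']
  · rw [LinearMap.comp_apply, hg, hg', LinearMap.comp_apply]
  · have := lawAt_comp hH' hT' hlaw hlaw'
    exact this

theorem mul_mem_gam {γ γ' : V2 →ₗ[Qb] V2} (hγ : γ ∈ P.Gam) (hγ' : γ' ∈ P.Gam) :
    γ * γ' ∈ P.Gam := comp_mem_gam hγ hγ'

/-- Products of lists of elements of `Gam` are in `Gam` ("law for words"). -/
theorem list_prod_mem_gam {l : List (V2 →ₗ[Qb] V2)} (hl : ∀ γ ∈ l, γ ∈ P.Gam) :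
    l.prod ∈ P.Gam := by
  induction l with
  | nil => exact one_mem_gam
  | cons γ l ih =>
    rw [List.prod_cons]
    exact mul_mem_gam (hl γ (List.mem_cons_self)) (ih fun γ' h => hl γ' (List.mem_cons_of_mem _ h))

theorem pow_mem_gam {γ : V2 →ₗ[Qb] V2} (hγ : γ ∈ P.Gam) (n : ℕ) : γ ^ n ∈ P.Gam := by
  induction n with
  | zero => exact one_mem_gam
  | succ n ih =>
    rw [pow_succ]
    exact mul_mem_gam ih hγ

variable (P)

/-- `Gam` as a submonoid of `End V2`. -/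
def gamSubmonoid : Submonoid (V2 →ₗ[Qb] V2) where
  carrier := P.Gam
  mul_mem' := mul_mem_gam
  one_mem' := one_mem_gam

variable {P}

/-- The submonoid generated by a subset of `Gam` lies in `Gam`. -/
theorem closure_le_gam {S : Set (V2 →ₗ[Qb] V2)} (hS : S ⊆ P.Gam) {γ : V2 →ₗ[Qb] V2}
    (hγ : γ ∈ Submonoid.closure S) : γ ∈ P.Gam := by
  have : Submonoid.closure S ≤ P.gamSubmonoid := (Submonoid.closure_le).mpr hS
  exact this hγ

/-- Iterated application of a word in two generators (first letter applied first), as used by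
the pigeonhole brick, stays in `Gam`. -/
theorem foldl_mem_gam {sS sT : V2 →ₗ[Qb] V2} (hS : sS ∈ P.Gam) (hT : sT ∈ P.Gam) (w : List Bool) :
    ∃ γ ∈ P.Gam, ∀ v : V2, γ v = w.foldl (fun u b => if b then sS u else sT u) v := by
  induction w using List.reverseRecOn with
  | nil => exact ⟨1, one_mem_gam, fun v => rfl⟩
  | append_singleton w b ih =>
    obtain ⟨γ, hγ, h⟩ := ih
    by_cases hb : b = true
    · refine ⟨sS ∘ₗ γ, comp_mem_gam hS hγ, fun v => ?_⟩
      rw [List.foldl_append, ← h v]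
      simp [hb]
    · refine ⟨sT ∘ₗ γ, comp_mem_gam hT hγ, fun v => ?_⟩
      rw [List.foldl_append, ← h v]
      simp [hb]

/-! ### Scalars -/

/-- A scalar `c` acting trivially on all eight coordinate functions and commuting with `g` up to
itself lies in `Gam` (e.g. `c = ζ`, or `c = -1` when all degrees are compatible). -/
theorem smul_mem_gam (c : Qb) (hH : ∀ v, P.H (c • v) = P.H v) (hT : ∀ v, P.T (c • v) = P.T v)
    (hg : ∀ v, P.g (c • v) = c • P.g v)
    (hxQ : ∀ v, P.xQ (c • v) = P.xQ v) (hyQ : ∀ v, P.yQ (c • v) = P.yQ v)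
    (hxR : ∀ v, P.xR (c • v) = P.xR v) (hyR : ∀ v, P.yR (c • v) = P.yR v) :
    (c • (1 : V2 →ₗ[Qb] V2)) ∈ P.Gam := by
  refine ⟨fun v => ?_, fun v => ?_, fun v => ?_, 1, 0, 0, 1, by norm_num, ?_⟩
  · simpa using hH v
  · simpa using hT v
  · simpa using hg v
  · intro v hv
    have e : (c • (1 : V2 →ₗ[Qb] V2)) v = c • v := by simp
    rw [e, hxQ, hyQ, hxR, hyR]
    refine ⟨?_, ?_⟩
    · simpa using ptEq_some (P.nonsingQ v hv)
    · simpa using ptEq_some (P.nonsingR v hv)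

/-- A scalar `c` (e.g. `-1`) fixing `H`, `T`, the `x`-coordinates and negating the `y`-coordinates
has law matrix `-1` and lies in `Gam`. -/
theorem smul_mem_gam_neg (c : Qb) (hH : ∀ v, P.H (c • v) = P.H v)
    (hT : ∀ v, P.T (c • v) = P.T v) (hg : ∀ v, P.g (c • v) = c • P.g v)
    (hxQ : ∀ v, P.xQ (c • v) = P.xQ v) (hyQ : ∀ v, P.yQ (c • v) = -P.yQ v)
    (hxR : ∀ v, P.xR (c • v) = P.xR v) (hyR : ∀ v, P.yR (c • v) = -P.yR v) :
    (c • (1 : V2 →ₗ[Qb] V2)) ∈ P.Gam := by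
  refine ⟨fun v => ?_, fun v => ?_, fun v => ?_, -1, 0, 0, -1, by norm_num, ?_⟩
  · simpa using hH v
  · simpa using hT v
  · simpa using hg v
  · intro v hv
    have e : (c • (1 : V2 →ₗ[Qb] V2)) v = c • v := by simp
    rw [e, hxQ, hyQ, hxR, hyR]
    refine ⟨?_, ?_⟩
    · simpa using ptEq_neg (ptEq_some (P.nonsingQ v hv))
    · simpa using ptEq_neg (ptEq_some (P.nonsingR v hv))

/-! ### Uniqueness of the law matrix modulo `5` -/

/-- Two laws of the same map agree modulo `5`, provided `Q(v)`, `R(v)` are independent modulo `5`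
at ONE point `v` with `f v ≠ 0`. -/
theorem lawAt_unique {γ : V2 → V2} {a b c d a' b' c' d' : ℤ} (h : P.LawAt γ a b c d)
    (h' : P.LawAt γ a' b' c' d') (v : V2) (hv : P.f v ≠ 0)
    (indep : ∀ m n : ℤ,
      m • (Point.some (P.xQ v) (P.yQ v) (P.nonsingQ v hv) : (kleinCurve (P.H v) (P.T v)).Point) +
        n • (Point.some (P.xR v) (P.yR v) (P.nonsingR v hv) :
          (kleinCurve (P.H v) (P.T v)).Point) = 0 → (5 : ℤ) ∣ m ∧ (5 : ℤ) ∣ n) :
    ((5 : ℤ) ∣ a - a' ∧ (5 : ℤ) ∣ c - c') ∧ ((5 : ℤ) ∣ b - b' ∧ (5 : ℤ) ∣ d - d') := by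
  obtain ⟨hQ, hR⟩ := h v hv
  obtain ⟨hQ', hR'⟩ := h' v hv
  have e1 := ptEq_unique hQ hQ'
  have e2 := ptEq_unique hR hR'
  refine ⟨indep _ _ ?_, indep _ _ ?_⟩
  · rw [sub_smul, sub_smul]
    rw [← sub_eq_zero] at e1
    rw [← e1]
    abel
  · rw [sub_smul, sub_smul]
    rw [← sub_eq_zero] at e2
    rw [← e2]
    abel

/-! ### Packaging into a `KleinData` -/

variable (P)

/-- The remaining fields of `KleinData` (everything that does not mention `Γ`). -/
structure Rest where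
  ζ : Qb
  gal_H : ∀ (σ : GQ) (v : V2), σ (P.H v) = P.H (gal σ v)
  gal_T : ∀ (σ : GQ) (v : V2), σ (P.T v) = P.T (gal σ v)
  gal_g : ∀ (σ : GQ) (v : V2), gal σ (P.g v) = P.g (gal σ v)
  gal_xQ : ∀ (σ : GQ) (v : V2), σ (P.xQ v) = P.xQ (gal σ v)
  gal_yQ : ∀ (σ : GQ) (v : V2), σ (P.yQ v) = P.yQ (gal σ v)
  scal_H : ∀ v : V2, P.H (ζ • v) = P.H v
  scal_T : ∀ v : V2, P.T (ζ • v) = P.T v
  scal_g : ∀ v : V2, P.g (ζ • v) = ζ • P.g v
  scal_xQ : ∀ v : V2, P.xQ (ζ • v) = P.xQ v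
  scal_yQ : ∀ v : V2, P.yQ (ζ • v) = P.yQ v
  scal_xR : ∀ v : V2, P.xR (ζ • v) = P.xR v
  scal_yR : ∀ v : V2, P.yR (ζ • v) = P.yR v
  fiveQ : ∀ (v : V2) (hv : P.f v ≠ 0),
    (5 : ℕ) • (Point.some (P.xQ v) (P.yQ v) (P.nonsingQ v hv) :
      (kleinCurve (P.H v) (P.T v)).Point) = 0
  fiveR : ∀ (v : V2) (hv : P.f v ≠ 0),
    (5 : ℕ) • (Point.some (P.xR v) (P.yR v) (P.nonsingR v hv) :
      (kleinCurve (P.H v) (P.T v)).Point) = 0
  indep : ∀ (v : V2) (hv : P.f v ≠ 0) (a b : ℤ),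
    a • (Point.some (P.xQ v) (P.yQ v) (P.nonsingQ v hv) : (kleinCurve (P.H v) (P.T v)).Point) +
      b • (Point.some (P.xR v) (P.yR v) (P.nonsingR v hv) :
        (kleinCurve (P.H v) (P.T v)).Point) = 0 →
    (5 : ℤ) ∣ a ∧ (5 : ℤ) ∣ b
  galR : ∀ σ : GQ, ∃ e : ℤ, ∀ (v : V2) (hv : P.f (gal σ v) ≠ 0),
    PtEq (kleinCurve (P.H (gal σ v)) (P.T (gal σ v))) (σ (P.xR v)) (σ (P.yR v))
      (e • (Point.some (P.xR (gal σ v)) (P.yR (gal σ v)) (P.nonsingR (gal σ v) hv)))

variable {P}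

/-- The `KleinData` with `Γ := Gam P`. -/
noncomputable def toKleinData (R : P.Rest) : KleinData where
  ζ := R.ζ
  H := P.H
  T := P.T
  f := P.f
  g := P.g
  xQ := P.xQ
  yQ := P.yQ
  xR := P.xR
  yR := P.yR
  Γ := P.Gam
  rel := P.rel
  gal_H := R.gal_H
  gal_T := R.gal_T
  gal_g := R.gal_g
  gal_xQ := R.gal_xQ
  gal_yQ := R.gal_yQ
  inv_H := fun _ hγ => hγ.1
  inv_T := fun _ hγ => hγ.2.1
  cov_g := fun _ hγ => hγ.2.2.1
  scal_H := R.scal_H
  scal_T := R.scal_T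
  scal_g := R.scal_g
  scal_xQ := R.scal_xQ
  scal_yQ := R.scal_yQ
  scal_xR := R.scal_xR
  scal_yR := R.scal_yR
  nonsingQ := P.nonsingQ
  nonsingR := P.nonsingR
  fiveQ := R.fiveQ
  fiveR := R.fiveR
  indep := R.indep
  law := fun _ hγ => by
    obtain ⟨_, _, _, a, b, c, d, _, h⟩ := hγ
    exact ⟨a, b, c, d, h⟩
  galR := R.galR

@[simp] theorem toKleinData_Γ (R : P.Rest) : (toKleinData R).Γ = P.Gam := rfl

/-- Every element of `Γ` of the packaged data has a law matrix of determinant `1` modulo `5`. -/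
theorem toKleinData_law_det (R : P.Rest) (γ : V2 →ₗ[Qb] V2) (hγ : γ ∈ (toKleinData R).Γ) :
    ∃ a b c d : ℤ, a * d - b * c ≡ 1 [ZMOD 5] ∧ P.LawAt γ a b c d := hγ.2.2.2

/-- The same in the shape of the field `law_det` of `S52K3.KleinData.Ext` (IfaceExt.lean):
`fun γ hγ => toKleinData_law_det_dvd R γ hγ` has that type up to unfolding `LawAt`. -/
theorem toKleinData_law_det_dvd (R : P.Rest) (γ : V2 →ₗ[Qb] V2) (hγ : γ ∈ (toKleinData R).Γ) :
    ∃ a b c d : ℤ, (5 : ℤ) ∣ a * d - b * c - 1 ∧ P.LawAt γ a b c d := by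
  obtain ⟨a, b, c, d, hdet, h⟩ := toKleinData_law_det R γ hγ
  exact ⟨a, b, c, d, (Int.modEq_iff_dvd.mp hdet.symm), h⟩

/-- Conversely, the relevant part of an arbitrary `KleinData`. -/
def ofKleinData (D : KleinData) : PreKlein where
  H := D.H
  T := D.T
  f := D.f
  g := D.g
  xQ := D.xQ
  yQ := D.yQ
  xR := D.xR
  yR := D.yR
  rel := D.rel
  nonsingQ := D.nonsingQ
  nonsingR := D.nonsingR

/-- `KleinData.law` restated with `LawAt`. -/
theorem law_ofKleinData (D : KleinData) (γ : V2 →ₗ[Qb] V2) (hγ : γ ∈ D.Γ) :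
    ∃ a b c d : ℤ, (ofKleinData D).LawAt γ a b c d := D.law γ hγ

end PreKlein

end Fermat.Agent.S52Top.LawComp
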