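/-
S52 / programme K (helper13): INSTANTIATION of `LawComp.PreKlein` with the explicit Klein data
`S52K.Klein56` (helper56), and the two generators of the binary icosahedral group as elements of
`PreKlein.Gam`.

Conventions (Iface): curve `y² = x³ + 27 H x - 54 T`, so `T := -kT`; `Q = N = (xN, yN)` (rational
coefficients), `R = M = (xM τ, μ * ytM τ)`; `T5 v = (ζ³ v.1, ζ² v.2)`; `S = (-μ⁻¹) • S'`,
`S' (a, b) = (-a + τ b, τ a + b)`.  Laws: `Q ∘ S = -R`, `R ∘ S = Q`, `Q ∘ T5 = Q - R`, `R ∘ T5 = R`.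

Main declarations (namespace `Fermat.Agent.S52Top.Inst56`):

* `Par` : the parameters `ζ τ μ` with their relations; `Par.ofPrimitiveRoot`;
* `pre p : LawComp.PreKlein`;
* `T5lin p`, `Slin p : V2 →ₗ[Qb] V2`, with `*_H`, `*_T`, `*_f`, `*_g`, coordinate laws;
* `lawAt_S : (pre p).LawAt (Slin p) 0 1 (-1) 0`, `lawAt_T5 : (pre p).LawAt (T5lin p) 1 0 (-1) 1`;
* `S_mem_gam`, `T5_mem_gam`;
* `gal_H … gal_yQ`, `scal_H … scal_yR` : the corresponding fields of `PreKlein.Rest`.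
-/
import Mathlib
import Fermat.Agent.S52Top.LawComp
import Fermat.Agent.S52K.Klein56.SIds
import Fermat.Agent.S52K.Klein56.SIdT
import Fermat.Agent.S52K.Klein56.TIds

set_option autoImplicit false

open WeierstrassCurve WeierstrassCurve.Affine

namespace Fermat.Agent.S52Top.Inst56

open Fermat.Agent.S52K3 Fermat.Agent.S52K.Klein56 Fermat.Agent.S52Top.LawComp

/-! ### Parameters -/

/-- The parameters: a fifth root of unity `ζ`, `τ = ζ + ζ⁴`, `μ = ζ² - ζ³`, with the relations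
used by the identities of `Klein56`. -/
structure Par where
  ζ : Qb
  τ : Qb
  μ : Qb
  h5 : ζ ^ 5 = 1
  hτ : τ ^ 2 + τ - 1 = 0
  hμ : μ ^ 2 = τ - 2
  h1 : ζ = (1 / 2) * τ * μ + (1 / 2) * τ + (1 / 2) * μ
  h2 : ζ ^ 2 = -(1 / 2) * τ + (1 / 2) * μ - (1 / 2)
  h3 : ζ ^ 3 = -(1 / 2) * τ - (1 / 2) * μ - (1 / 2)
  h4 : ζ ^ 4 = -(1 / 2) * τ * μ + (1 / 2) * τ - (1 / 2) * μ

/-- The parameters attached to a primitive fifth root of unity. -/
noncomputable def Par.ofPrimitiveRoot (ζ : Qb) (hζ : IsPrimitiveRoot ζ 5) : Par :=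
  have h5 : ζ ^ 5 = 1 := hζ.pow_eq_one
  have hsum : 1 + ζ + ζ ^ 2 + ζ ^ 3 + ζ ^ 4 = 0 := by
    have := hζ.geom_sum_eq_zero (by norm_num)
    simpa [Finset.sum_range_succ] using this
  { ζ := ζ
    τ := ζ + ζ ^ 4
    μ := ζ ^ 2 - ζ ^ 3
    h5 := h5
    hτ := by linear_combination hsum + (2 + ζ ^ 3) * h5
    hμ := by linear_combination (ζ - 2) * h5
    h1 := by linear_combination (1 / 2 : Qb) * (ζ ^ 2 - ζ) * h5
    h2 := by linear_combination (1 / 2 : Qb) * hsum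
    h3 := by linear_combination (1 / 2 : Qb) * hsum
    h4 := by linear_combination (1 / 2 : Qb) * (ζ - ζ ^ 2) * h5 }

@[simp] theorem Par.ofPrimitiveRoot_ζ (ζ : Qb) (hζ : IsPrimitiveRoot ζ 5) :
    (Par.ofPrimitiveRoot ζ hζ).ζ = ζ := rfl

@[simp] theorem Par.ofPrimitiveRoot_τ (ζ : Qb) (hζ : IsPrimitiveRoot ζ 5) :
    (Par.ofPrimitiveRoot ζ hζ).τ = ζ + ζ ^ 4 := rfl

@[simp] theorem Par.ofPrimitiveRoot_μ (ζ : Qb) (hζ : IsPrimitiveRoot ζ 5) :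
    (Par.ofPrimitiveRoot ζ hζ).μ = ζ ^ 2 - ζ ^ 3 := rfl

namespace Par

variable (p : Par)

theorem τ_sub_two_ne_zero : p.τ - 2 ≠ 0 := by
  intro h
  have h2 : p.τ = 2 := by linear_combination h
  have := p.hτ
  rw [h2] at this
  norm_num at this

theorem μ_ne_zero : p.μ ≠ 0 := by
  intro h
  have := p.hμ
  rw [h] at this
  exact p.τ_sub_two_ne_zero (by rw [← this]; ring)

/-- the scalar `c = -μ⁻¹` making `S = c • S'` unimodular. -/
noncomputable def c : Qb := -p.μ⁻¹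

theorem c_mul_μ : p.c * p.μ = -1 := by
  unfold c
  rw [neg_mul, inv_mul_cancel₀ p.μ_ne_zero]

theorem c_sq : p.c ^ 2 * (p.τ - 2) = 1 := by
  rw [← p.hμ]
  have := p.c_mul_μ
  calc p.c ^ 2 * p.μ ^ 2 = (p.c * p.μ) ^ 2 := by ring
    _ = 1 := by rw [this]; ring

theorem c_mul : p.c * (p.τ - 2) = -p.μ := by
  rw [← p.hμ]
  calc p.c * p.μ ^ 2 = (p.c * p.μ) * p.μ := by ring
    _ = -p.μ := by rw [p.c_mul_μ]; ring

theorem ζ_pow_ten : p.ζ ^ 10 = 1 := by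
  calc p.ζ ^ 10 = (p.ζ ^ 5) ^ 2 := by ring
    _ = 1 := by rw [p.h5]; ring

end Par

/-! ### The Klein curve -/

theorem kleinCurve_Δ' (h t : Qb) : (kleinCurve h t).Δ = -1259712 * (h ^ 3 + t ^ 2) := by
  simp only [kleinCurve, WeierstrassCurve.Δ, b₂, b₄, b₆, b₈]
  ring

theorem kleinCurve_equation (h t x y : Qb) :
    (kleinCurve h t).Equation x y ↔ y ^ 2 = x ^ 3 + 27 * h * x - 54 * t := by
  rw [equation_iff]
  simp only [kleinCurve]
  constructor <;> intro hh <;> linear_combination hh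

theorem kleinCurve_nonsingular {h t : Qb} (hd : h ^ 3 + t ^ 2 ≠ 0) (x y : Qb) :
    (kleinCurve h t).Nonsingular x y ↔ y ^ 2 = x ^ 3 + 27 * h * x - 54 * t := by
  have hΔ : (kleinCurve h t).Δ ≠ 0 := by
    rw [kleinCurve_Δ']
    exact mul_ne_zero (by norm_num) hd
  rw [← equation_iff_nonsingular_of_Δ_ne_zero hΔ, kleinCurve_equation]

theorem kleinCurve_negY (h t x y : Qb) : (kleinCurve h t).negY x y = -y := by
  simp [negY, kleinCurve]

theorem kleinCurve_addX (h t x₁ x₂ ℓ : Qb) : (kleinCurve h t).addX x₁ x₂ ℓ = ℓ ^ 2 - x₁ - x₂ := by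
  simp [addX, kleinCurve]

theorem kleinCurve_addY (h t x₁ x₂ y₁ ℓ : Qb) :
    (kleinCurve h t).addY x₁ x₂ y₁ ℓ = -(ℓ * (ℓ ^ 2 - x₁ - x₂ - x₁) + y₁) := by
  simp [addY, negAddY, negY, addX, kleinCurve]

/-- Chord addition with an explicitly given slope (as in `TorsBasis65`). -/
theorem some_add_some_of_slope' {W : Affine Qb} {x₁ y₁ x₂ y₂ x₃ y₃ ℓ : Qb}
    (h₁ : W.Nonsingular x₁ y₁) (h₂ : W.Nonsingular x₂ y₂) (h₃ : W.Nonsingular x₃ y₃)
    (hx : x₁ ≠ x₂) (hℓ : ℓ * (x₁ - x₂) = y₁ - y₂)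
    (hx₃ : x₃ = W.addX x₁ x₂ ℓ) (hy₃ : y₃ = W.addY x₁ x₂ y₁ ℓ) :
    Point.some x₁ y₁ h₁ + Point.some x₂ y₂ h₂ = Point.some x₃ y₃ h₃ := by
  have hs : W.slope x₁ x₂ y₁ y₂ = ℓ := by
    rw [slope_of_X_ne hx, div_eq_iff (sub_ne_zero.mpr hx), hℓ]
  rw [Point.add_of_X_ne hx]
  subst hx₃ hy₃
  simp only [hs]

section combs

variable {A : Type*} [AddCommGroup A]

theorem comb_zero_negOne (Q R : A) : (0 : ℤ) • Q + (-1 : ℤ) • R = -R := by simp
theorem comb_one_zero (Q R : A) : (1 : ℤ) • Q + (0 : ℤ) • R = Q := by simp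
theorem comb_zero_one (Q R : A) : (0 : ℤ) • Q + (1 : ℤ) • R = R := by simp
theorem comb_one_negOne (Q R : A) : (1 : ℤ) • Q + (-1 : ℤ) • R = Q + -R := by simp

end combs

/-! ### The `PreKlein` -/

/-- The explicit Klein data as a `PreKlein`. -/
noncomputable def pre (p : Par) : PreKlein where
  H v := kH v.1 v.2
  T v := -kT v.1 v.2
  f v := kf v.1 v.2
  g v := (g1 v.1 v.2, g2 v.1 v.2)
  xQ v := xN v.1 v.2
  yQ v := yN v.1 v.2
  xR v := xM p.τ v.1 v.2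
  yR v := p.μ * ytM p.τ v.1 v.2
  rel v := by linear_combination syzygy v.1 v.2
  nonsingQ v hv := by
    have hd : kH v.1 v.2 ^ 3 + (-kT v.1 v.2) ^ 2 ≠ 0 := by
      have : kH v.1 v.2 ^ 3 + (-kT v.1 v.2) ^ 2 = 1728 * kf v.1 v.2 ^ 5 := by
        linear_combination syzygy v.1 v.2
      rw [this]
      exact mul_ne_zero (by norm_num) (pow_ne_zero _ hv)
    rw [kleinCurve_nonsingular hd]
    linear_combination N_on v.1 v.2
  nonsingR v hv := by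
    have hd : kH v.1 v.2 ^ 3 + (-kT v.1 v.2) ^ 2 ≠ 0 := by
      have : kH v.1 v.2 ^ 3 + (-kT v.1 v.2) ^ 2 = 1728 * kf v.1 v.2 ^ 5 := by
        linear_combination syzygy v.1 v.2
      rw [this]
      exact mul_ne_zero (by norm_num) (pow_ne_zero _ hv)
    rw [kleinCurve_nonsingular hd]
    linear_combination M_on v.1 v.2 p.τ p.hτ + ytM p.τ v.1 v.2 ^ 2 * p.hμ

variable (p : Par)

@[simp] theorem pre_H (v : V2) : (pre p).H v = kH v.1 v.2 := rfl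
@[simp] theorem pre_T (v : V2) : (pre p).T v = -kT v.1 v.2 := rfl
@[simp] theorem pre_f (v : V2) : (pre p).f v = kf v.1 v.2 := rfl
@[simp] theorem pre_g (v : V2) : (pre p).g v = (g1 v.1 v.2, g2 v.1 v.2) := rfl
@[simp] theorem pre_xQ (v : V2) : (pre p).xQ v = xN v.1 v.2 := rfl
@[simp] theorem pre_yQ (v : V2) : (pre p).yQ v = yN v.1 v.2 := rfl
@[simp] theorem pre_xR (v : V2) : (pre p).xR v = xM p.τ v.1 v.2 := rfl
@[simp] theorem pre_yR (v : V2) : (pre p).yR v = p.μ * ytM p.τ v.1 v.2 := rfl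

/-! ### The generators -/

/-- `T5 (a, b) = (ζ³ a, ζ² b)`. -/
noncomputable def T5lin : V2 →ₗ[Qb] V2 where
  toFun v := (p.ζ ^ 3 * v.1, p.ζ ^ 2 * v.2)
  map_add' v w := by
    ext <;> simp [mul_add]
  map_smul' c v := by
    ext <;> simp <;> ring

/-- `S' (a, b) = (-a + τ b, τ a + b)` (determinant `τ - 2 = μ²`). -/
noncomputable def S'lin : V2 →ₗ[Qb] V2 where
  toFun v := (-v.1 + p.τ * v.2, p.τ * v.1 + v.2)
  map_add' v w := by
    ext <;> simp <;> ring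
  map_smul' c v := by
    ext <;> simp <;> ring

/-- `S = (-μ⁻¹) • S'` (determinant `1`). -/
noncomputable def Slin : V2 →ₗ[Qb] V2 := p.c • S'lin p

@[simp] theorem T5lin_apply (v : V2) : T5lin p v = (p.ζ ^ 3 * v.1, p.ζ ^ 2 * v.2) := rfl

@[simp] theorem S'lin_apply (v : V2) : S'lin p v = (-v.1 + p.τ * v.2, p.τ * v.1 + v.2) := rfl

theorem Slin_apply (v : V2) :
    Slin p v = (p.c * (-v.1 + p.τ * v.2), p.c * (p.τ * v.1 + v.2)) := by
  simp [Slin]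

/-! ### Invariance under `T5` -/

theorem T5_H (v : V2) : (pre p).H (T5lin p v) = (pre p).H v := kH_T5 v.1 v.2 p.ζ p.h5

theorem T5_T (v : V2) : (pre p).T (T5lin p v) = (pre p).T v := by
  simp only [pre_T, T5lin_apply]
  rw [kT_T5 v.1 v.2 p.ζ p.h5]

theorem T5_f (v : V2) : (pre p).f (T5lin p v) = (pre p).f v := kf_T5 v.1 v.2 p.ζ p.h5

theorem T5_g (v : V2) : (pre p).g (T5lin p v) = T5lin p ((pre p).g v) := by
  simp only [pre_g, T5lin_apply]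
  rw [g1_T5 v.1 v.2 p.ζ p.h5, g2_T5 v.1 v.2 p.ζ p.h5]

theorem T5_xR (v : V2) : (pre p).xR (T5lin p v) = (pre p).xR v := xM_T5 v.1 v.2 p.τ p.ζ p.h5

theorem T5_yR (v : V2) : (pre p).yR (T5lin p v) = (pre p).yR v := by
  simp only [pre_yR, T5lin_apply]
  rw [ytM_T5 v.1 v.2 p.τ p.ζ p.h5]

theorem T5_xQ (v : V2) :
    (pre p).xQ (T5lin p v) = lam p.τ p.μ v.1 v.2 ^ 2 - (pre p).xQ v - (pre p).xR v :=
  xN_T5 v.1 v.2 p.τ p.μ p.ζ p.hτ p.hμ p.h5 p.h1 p.h2 p.h3 p.h4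

theorem T5_yQ (v : V2) :
    (pre p).yQ (T5lin p v) = -(lam p.τ p.μ v.1 v.2 *
      (lam p.τ p.μ v.1 v.2 ^ 2 - (pre p).xQ v - (pre p).xR v - (pre p).xQ v) + (pre p).yQ v) :=
  yN_T5 v.1 v.2 p.τ p.μ p.ζ p.hτ p.hμ p.h5 p.h1 p.h2 p.h3 p.h4

/-! ### Invariance under `S` -/

theorem S_H (v : V2) : (pre p).H (Slin p v) = (pre p).H v := by
  simp only [pre_H, Slin_apply]
  rw [kH_smul, kH_S' v.1 v.2 p.τ p.hτ]
  calc p.c ^ 20 * ((p.τ - 2) ^ 10 * kH v.1 v.2)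
      = (p.c ^ 2 * (p.τ - 2)) ^ 10 * kH v.1 v.2 := by ring
    _ = kH v.1 v.2 := by rw [p.c_sq]; ring

theorem S_T (v : V2) : (pre p).T (Slin p v) = (pre p).T v := by
  simp only [pre_T, Slin_apply]
  rw [kT_smul, kT_S' v.1 v.2 p.τ p.hτ]
  calc -(p.c ^ 30 * ((p.τ - 2) ^ 15 * kT v.1 v.2))
      = -((p.c ^ 2 * (p.τ - 2)) ^ 15 * kT v.1 v.2) := by ring
    _ = -kT v.1 v.2 := by rw [p.c_sq]; ring

theorem S_f (v : V2) : (pre p).f (Slin p v) = (pre p).f v := by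
  simp only [pre_f, Slin_apply]
  rw [kf_smul, kf_S' v.1 v.2 p.τ p.hτ]
  calc p.c ^ 12 * ((p.τ - 2) ^ 6 * kf v.1 v.2)
      = (p.c ^ 2 * (p.τ - 2)) ^ 6 * kf v.1 v.2 := by ring
    _ = kf v.1 v.2 := by rw [p.c_sq]; ring

theorem S_g (v : V2) : (pre p).g (Slin p v) = Slin p ((pre p).g v) := by
  simp only [pre_g, Slin_apply]
  rw [g1_smul, g2_smul, g1_S' v.1 v.2 p.τ p.hτ, g2_S' v.1 v.2 p.τ p.hτ]
  ext
  · calc p.c ^ 11 * ((p.τ - 2) ^ 5 * (-g1 v.1 v.2 + p.τ * g2 v.1 v.2))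
        = (p.c ^ 2 * (p.τ - 2)) ^ 5 * (p.c * (-g1 v.1 v.2 + p.τ * g2 v.1 v.2)) := by ring
      _ = p.c * (-g1 v.1 v.2 + p.τ * g2 v.1 v.2) := by rw [p.c_sq]; ring
  · calc p.c ^ 11 * ((p.τ - 2) ^ 5 * (p.τ * g1 v.1 v.2 + g2 v.1 v.2))
        = (p.c ^ 2 * (p.τ - 2)) ^ 5 * (p.c * (p.τ * g1 v.1 v.2 + g2 v.1 v.2)) := by ring
      _ = p.c * (p.τ * g1 v.1 v.2 + g2 v.1 v.2) := by rw [p.c_sq]; ring

/-- `x(Q(S v)) = x(R(v))`. -/
theorem S_xQ (v : V2) : (pre p).xQ (Slin p v) = (pre p).xR v := by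
  simp only [pre_xQ, pre_xR, Slin_apply]
  rw [xN_smul, xN_S' v.1 v.2 p.τ p.hτ]
  calc p.c ^ 10 * ((p.τ - 2) ^ 5 * xM p.τ v.1 v.2)
      = (p.c ^ 2 * (p.τ - 2)) ^ 5 * xM p.τ v.1 v.2 := by ring
    _ = xM p.τ v.1 v.2 := by rw [p.c_sq]; ring

/-- `y(Q(S v)) = -y(R(v))`. -/
theorem S_yQ (v : V2) : (pre p).yQ (Slin p v) = -(pre p).yR v := by
  simp only [pre_yQ, pre_yR, Slin_apply]
  rw [yN_smul, yN_S' v.1 v.2 p.τ p.hτ]
  calc p.c ^ 15 * ((p.τ - 2) ^ 8 * ytM p.τ v.1 v.2)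
      = (p.c ^ 2 * (p.τ - 2)) ^ 7 * ((p.c * (p.τ - 2)) * ytM p.τ v.1 v.2) := by ring
    _ = -(p.μ * ytM p.τ v.1 v.2) := by rw [p.c_sq, p.c_mul]; ring

/-- `x(R(S v)) = x(Q(v))`. -/
theorem S_xR (v : V2) : (pre p).xR (Slin p v) = (pre p).xQ v := by
  simp only [pre_xQ, pre_xR, Slin_apply]
  rw [xM_smul, xM_S' v.1 v.2 p.τ p.hτ]
  calc p.c ^ 10 * ((p.τ - 2) ^ 5 * xN v.1 v.2)
      = (p.c ^ 2 * (p.τ - 2)) ^ 5 * xN v.1 v.2 := by ring
    _ = xN v.1 v.2 := by rw [p.c_sq]; ring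

/-- `y(R(S v)) = y(Q(v))`. -/
theorem S_yR (v : V2) : (pre p).yR (Slin p v) = (pre p).yQ v := by
  simp only [pre_yQ, pre_yR, Slin_apply]
  rw [ytM_smul, ytM_S' v.1 v.2 p.τ p.hτ]
  calc p.μ * (p.c ^ 15 * -((p.τ - 2) ^ 7 * yN v.1 v.2))
      = -((p.c ^ 2 * (p.τ - 2)) ^ 7 * ((p.c * p.μ) * yN v.1 v.2)) := by ring
    _ = yN v.1 v.2 := by rw [p.c_sq, p.c_mul_μ]; ring

/-! ### The laws -/

/-- `Q(S v) = -R(v)`, `R(S v) = Q(v)`. -/
theorem lawAt_S : (pre p).LawAt (Slin p) 0 1 (-1) 0 := by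
  intro v hv
  refine ⟨?_, ?_⟩
  · rw [S_xQ, S_yQ, comb_zero_negOne]
    exact ptEq_neg (ptEq_some ((pre p).nonsingR v hv))
  · rw [S_xR, S_yR, comb_one_zero]
    exact ptEq_some ((pre p).nonsingQ v hv)

theorem xQ_ne_xR {v : V2} (hv : (pre p).f v ≠ 0) : (pre p).xQ v ≠ (pre p).xR v := by
  intro h
  have hs := sep v.1 v.2 p.τ p.hτ
  simp only [pre_xQ, pre_xR] at h
  rw [h, sub_self, zero_mul] at hs
  have : kf v.1 v.2 ^ 2 = 0 := by
    have h36 : (36 : Qb) ≠ 0 := by norm_num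
    exact (mul_eq_zero.mp hs.symm).resolve_left h36
  exact hv (pow_eq_zero_iff (by norm_num) |>.mp this)

/-- `Q(T5 v) = Q(v) - R(v)`, `R(T5 v) = R(v)`. -/
theorem lawAt_T5 : (pre p).LawAt (T5lin p) 1 0 (-1) 1 := by
  intro v hv
  refine ⟨?_, ?_⟩
  · -- the chord through `Q` and `-R` with slope `lam`
    have hv' : (pre p).f (T5lin p v) ≠ 0 := by rw [T5_f]; exact hv
    have n3' := (pre p).nonsingQ (T5lin p v) hv'
    rw [T5_H, T5_T] at n3'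
    obtain ⟨nR', hR'⟩ := ptEq_neg (ptEq_some ((pre p).nonsingR v hv))
    refine ⟨n3', ?_⟩
    rw [comb_one_negOne, ← hR']
    symm
    apply some_add_some_of_slope' ((pre p).nonsingQ v hv) nR' n3' (xQ_ne_xR p hv)
      (ℓ := lam p.τ p.μ v.1 v.2)
    · have := lam_slope v.1 v.2 p.τ p.μ p.hτ p.hμ
      simp only [pre_xQ, pre_xR, pre_yQ, pre_yR]
      linear_combination this
    · rw [kleinCurve_addX]
      exact T5_xQ p v
    · rw [kleinCurve_addY]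
      exact T5_yQ p v
  · rw [T5_xR, T5_yR, comb_zero_one]
    exact ptEq_some ((pre p).nonsingR v hv)

theorem S_mem_gam : Slin p ∈ (pre p).Gam :=
  ⟨S_H p, S_T p, S_g p, 0, 1, -1, 0, by norm_num, lawAt_S p⟩

theorem T5_mem_gam : T5lin p ∈ (pre p).Gam :=
  ⟨T5_H p, T5_T p, T5_g p, 1, 0, -1, 1, by norm_num, lawAt_T5 p⟩

/-- Every word in `S`, `T5` (first letter applied first, `true = S`) is in `Gam`. -/
theorem word_mem_gam (w : List Bool) :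
    ∃ γ ∈ (pre p).Gam, ∀ v : V2,
      γ v = w.foldl (fun u b => if b then Slin p u else T5lin p u) v :=
  PreKlein.foldl_mem_gam (S_mem_gam p) (T5_mem_gam p) w

/-! ### Rational coefficients -/

section maps

variable {F : Type*} [FunLike F Qb Qb] [RingHomClass F Qb Qb] (φ : F)

theorem map_kf (a b : Qb) : φ (kf a b) = kf (φ a) (φ b) := by
  simp only [kf, map_add, map_sub, map_mul, map_pow, map_ofNat]

theorem map_kH (a b : Qb) : φ (kH a b) = kH (φ a) (φ b) := by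
  simp only [kH, map_add, map_sub, map_mul, map_pow, map_neg, map_ofNat]

theorem map_kT (a b : Qb) : φ (kT a b) = kT (φ a) (φ b) := by
  simp only [kT, map_add, map_sub, map_mul, map_pow, map_ofNat]

theorem map_xN (a b : Qb) : φ (xN a b) = xN (φ a) (φ b) := by
  simp only [xN, map_add, map_sub, map_mul, map_pow, map_ofNat]

theorem map_yN (a b : Qb) : φ (yN a b) = yN (φ a) (φ b) := by
  simp only [yN, map_add, map_mul, map_pow, map_ofNat]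

theorem map_g1 (a b : Qb) : φ (g1 a b) = g1 (φ a) (φ b) := by
  simp only [g1, map_add, map_sub, map_mul, map_pow, map_ofNat]

theorem map_g2 (a b : Qb) : φ (g2 a b) = g2 (φ a) (φ b) := by
  simp only [g2, map_add, map_sub, map_mul, map_pow, map_neg, map_ofNat]

theorem map_xM (t a b : Qb) : φ (xM t a b) = xM (φ t) (φ a) (φ b) := by
  simp only [xM, map_add, map_sub, map_mul, map_pow, map_div₀, map_ofNat]

theorem map_ytM (t a b : Qb) : φ (ytM t a b) = ytM (φ t) (φ a) (φ b) := by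
  simp only [ytM, map_add, map_sub, map_mul, map_pow, map_div₀, map_ofNat]

end maps

theorem gal_H (σ : GQ) (v : V2) : σ ((pre p).H v) = (pre p).H (gal σ v) := map_kH σ v.1 v.2

theorem gal_T (σ : GQ) (v : V2) : σ ((pre p).T v) = (pre p).T (gal σ v) := by
  simp only [pre_T, map_neg]
  rw [map_kT σ v.1 v.2]
  rfl

theorem gal_f (σ : GQ) (v : V2) : σ ((pre p).f v) = (pre p).f (gal σ v) := map_kf σ v.1 v.2

theorem gal_g (σ : GQ) (v : V2) : gal σ ((pre p).g v) = (pre p).g (gal σ v) := by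
  simp only [pre_g, gal]
  rw [map_g1 σ v.1 v.2, map_g2 σ v.1 v.2]

theorem gal_xQ (σ : GQ) (v : V2) : σ ((pre p).xQ v) = (pre p).xQ (gal σ v) := map_xN σ v.1 v.2

theorem gal_yQ (σ : GQ) (v : V2) : σ ((pre p).yQ v) = (pre p).yQ (gal σ v) := map_yN σ v.1 v.2

/-- Galois conjugation of `x(R)`: the coefficient `τ` is conjugated. -/
theorem gal_xR (σ : GQ) (v : V2) : σ ((pre p).xR v) = xM (σ p.τ) (σ v.1) (σ v.2) :=
  map_xM σ p.τ v.1 v.2

/-- Galois conjugation of `y(R)`: the coefficients `τ`, `μ` are conjugated. -/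
theorem gal_yR (σ : GQ) (v : V2) :
    σ ((pre p).yR v) = σ p.μ * ytM (σ p.τ) (σ v.1) (σ v.2) := by
  simp only [pre_yR, map_mul]
  rw [map_ytM σ p.τ v.1 v.2]

/-! ### Homogeneity under `μ₅` -/

theorem smul_def' (c : Qb) (v : V2) : c • v = (c * v.1, c * v.2) := rfl

theorem scal_H (v : V2) : (pre p).H (p.ζ • v) = (pre p).H v := by
  simp only [pre_H, smul_def']
  rw [kH_smul]
  calc p.ζ ^ 20 * kH v.1 v.2 = (p.ζ ^ 5) ^ 4 * kH v.1 v.2 := by ring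
    _ = kH v.1 v.2 := by rw [p.h5]; ring

theorem scal_T (v : V2) : (pre p).T (p.ζ • v) = (pre p).T v := by
  simp only [pre_T, smul_def']
  rw [kT_smul]
  calc -(p.ζ ^ 30 * kT v.1 v.2) = -((p.ζ ^ 5) ^ 6 * kT v.1 v.2) := by ring
    _ = -kT v.1 v.2 := by rw [p.h5]; ring

theorem scal_g (v : V2) : (pre p).g (p.ζ • v) = p.ζ • (pre p).g v := by
  simp only [pre_g, smul_def']
  rw [g1_smul, g2_smul]
  ext
  · calc p.ζ ^ 11 * g1 v.1 v.2 = (p.ζ ^ 5) ^ 2 * (p.ζ * g1 v.1 v.2) := by ring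
      _ = p.ζ * g1 v.1 v.2 := by rw [p.h5]; ring
  · calc p.ζ ^ 11 * g2 v.1 v.2 = (p.ζ ^ 5) ^ 2 * (p.ζ * g2 v.1 v.2) := by ring
      _ = p.ζ * g2 v.1 v.2 := by rw [p.h5]; ring

theorem scal_xQ (v : V2) : (pre p).xQ (p.ζ • v) = (pre p).xQ v := by
  simp only [pre_xQ, smul_def']
  rw [xN_smul]
  calc p.ζ ^ 10 * xN v.1 v.2 = (p.ζ ^ 5) ^ 2 * xN v.1 v.2 := by ring
    _ = xN v.1 v.2 := by rw [p.h5]; ring

theorem scal_yQ (v : V2) : (pre p).yQ (p.ζ • v) = (pre p).yQ v := by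
  simp only [pre_yQ, smul_def']
  rw [yN_smul]
  calc p.ζ ^ 15 * yN v.1 v.2 = (p.ζ ^ 5) ^ 3 * yN v.1 v.2 := by ring
    _ = yN v.1 v.2 := by rw [p.h5]; ring

theorem scal_xR (v : V2) : (pre p).xR (p.ζ • v) = (pre p).xR v := by
  simp only [pre_xR, smul_def']
  rw [xM_smul]
  calc p.ζ ^ 10 * xM p.τ v.1 v.2 = (p.ζ ^ 5) ^ 2 * xM p.τ v.1 v.2 := by ring
    _ = xM p.τ v.1 v.2 := by rw [p.h5]; ring

theorem scal_yR (v : V2) : (pre p).yR (p.ζ • v) = (pre p).yR v := by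
  simp only [pre_yR, smul_def']
  rw [ytM_smul]
  calc p.μ * (p.ζ ^ 15 * ytM p.τ v.1 v.2) = (p.ζ ^ 5) ^ 3 * (p.μ * ytM p.τ v.1 v.2) := by ring
    _ = p.μ * ytM p.τ v.1 v.2 := by rw [p.h5]; ring

theorem scal_f (v : V2) : (pre p).f (p.ζ • v) = p.ζ ^ 2 * (pre p).f v := by
  simp only [pre_f, smul_def']
  rw [kf_smul]
  calc p.ζ ^ 12 * kf v.1 v.2 = (p.ζ ^ 5) ^ 2 * (p.ζ ^ 2 * kf v.1 v.2) := by ring
    _ = p.ζ ^ 2 * kf v.1 v.2 := by rw [p.h5]; ring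

/-- `ζ • 1 ∈ Gam`. -/
theorem zeta_mem_gam : (p.ζ • (1 : V2 →ₗ[Qb] V2)) ∈ (pre p).Gam :=
  PreKlein.smul_mem_gam p.ζ (scal_H p) (scal_T p) (scal_g p) (scal_xQ p) (scal_yQ p)
    (scal_xR p) (scal_yR p)

/-- `-1 ∈ Gam` (law matrix `-1`). -/
theorem neg_one_mem_gam : ((-1 : Qb) • (1 : V2 →ₗ[Qb] V2)) ∈ (pre p).Gam := by
  refine PreKlein.smul_mem_gam_neg (-1) (fun v => ?_) (fun v => ?_) (fun v => ?_) (fun v => ?_)
    (fun v => ?_) (fun v => ?_) (fun v => ?_)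
  · simp only [pre_H, smul_def']; rw [kH_smul]; ring
  · simp only [pre_T, smul_def']; rw [kT_smul]; ring
  · simp only [pre_g, smul_def']; rw [g1_smul, g2_smul]; ext <;> simp <;> ring
  · simp only [pre_xQ, smul_def']; rw [xN_smul]; ring
  · simp only [pre_yQ, smul_def']; rw [yN_smul]; ring
  · simp only [pre_xR, smul_def']; rw [xM_smul]; ring
  · simp only [pre_yR, smul_def']; rw [ytM_smul]; ring

end Fermat.Agent.S52Top.Inst56
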