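/-
S52 / programme K (helper13): the field `galR` of `KleinData` for the explicit Klein data, from
`Klein56.conj_point` (helper56), and the COMPLETE instance:

* `galR ζ hζ : Rest56.GalR ζ hζ`;
* `Dk ζ hζ : S52K3.KleinData` (`= Rest56.D56 ζ hζ (galR ζ hζ)`);
* `fibres ζ hζ : (Dk ζ hζ).Fibres`, `ext ζ hζ : (Dk ζ hζ).Ext` (via `S52K2.Gens56`, helper11);
* `exists_zeta : ∃ ζ : Qb, IsPrimitiveRoot ζ 5`.
-/
import Mathlib
import Fermat.Agent.S52Top.Rest56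
import Fermat.Agent.S52K.Klein56.Gal56
import Fermat.Agent.S52K2.Gens56
import Fermat.Agent.S52K3.IfaceExt

set_option autoImplicit false

open WeierstrassCurve WeierstrassCurve.Affine

namespace Fermat.Agent.S52Top.GalR56

open Fermat.Agent.S52K3 Fermat.Agent.S52K.Klein56 Fermat.Agent.S52Top.LawComp
open Fermat.Agent.S52Top.Inst56 Fermat.Agent.S52Top.Rest56
open Fermat.Agent.S52K

/-- Transport of a point identity from `TorsBasis65.E h t` to an equal curve, in `PtEq` form. -/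
theorem ptEq_of_pt {W : Affine Qb} {h t : Qb} (hW : W = TorsBasis65.E h t) {x y x' y' : Qb}
    (n : (TorsBasis65.E h t).Nonsingular x y) (n' : W.Nonsingular x' y') (e : ℤ)
    (hpt : TorsBasis65.pt (TorsBasis65.E h t) x y = e • TorsBasis65.pt (TorsBasis65.E h t) x' y') :
    PtEq W x y (e • Point.some x' y' n') := by
  subst hW
  rw [TorsBasis65.pt_of n, TorsBasis65.pt_of n'] at hpt
  exact ⟨n, hpt⟩

variable (ζ : Qb) (hζ : IsPrimitiveRoot ζ 5)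

include hζ in
theorem cyclo_map (σ : GQ) : (σ ζ) ^ 4 + (σ ζ) ^ 3 + (σ ζ) ^ 2 + σ ζ + 1 = 0 := by
  have h := congrArg σ (cyclo ζ hζ)
  simpa only [map_add, map_pow, map_one, map_zero] using h

theorem sigma_tau (σ : GQ) : σ (par ζ hζ).τ = tauOf (σ ζ) := by
  rw [par_τ]
  simp only [tauOf, map_add, map_pow]

theorem sigma_mu (σ : GQ) : σ (par ζ hζ).μ = muOf (σ ζ) := by
  rw [par_μ]
  simp only [muOf, map_sub, map_pow]

/-- **The field `galR` for the explicit Klein data.** -/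
theorem galR : GalR ζ hζ := by
  intro σ
  obtain ⟨e, -, he⟩ := conj_point (cyclo ζ hζ) (cyclo_map ζ hζ σ)
  refine ⟨e, fun v hv => ?_⟩
  set w : V2 := gal σ v with hw
  have hd : kT w.1 w.2 ^ 2 + kH w.1 w.2 ^ 3 ≠ 0 := disc_ne ζ hζ hv
  have h₂ := cyclo_map ζ hζ σ
  have hx : σ ((pre (par ζ hζ)).xR v) = xM (tauOf (σ ζ)) w.1 w.2 := by
    rw [gal_xR, sigma_tau]
    rfl
  have hy : σ ((pre (par ζ hζ)).yR v) = muOf (σ ζ) * ytM (tauOf (σ ζ)) w.1 w.2 := by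
    rw [gal_yR, sigma_tau, sigma_mu]
    rfl
  rw [hx, hy]
  have hns : (TorsBasis65.E (kH w.1 w.2) (kT w.1 w.2)).Nonsingular
      (xM (tauOf (σ ζ)) w.1 w.2) (muOf (σ ζ) * ytM (tauOf (σ ζ)) w.1 w.2) := by
    rw [TorsBasis65.E_nonsingular (by norm_num) hd]
    have h1 := M_on w.1 w.2 (tauOf (σ ζ)) (tau_rel h₂)
    have h2 := mu_rel h₂
    linear_combination ytM (tauOf (σ ζ)) w.1 w.2 ^ 2 * h2 + h1
  exact ptEq_of_pt (curve_eq ζ hζ w) hns _ e (he w hd)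

/-- **The explicit `KleinData`**, complete. -/
noncomputable def Dk : KleinData := D56 ζ hζ (galR ζ hζ)

@[simp] theorem Dk_ζ : (Dk ζ hζ).ζ = ζ := rfl
@[simp] theorem Dk_H (v : V2) : (Dk ζ hζ).H v = kH v.1 v.2 := rfl
@[simp] theorem Dk_T (v : V2) : (Dk ζ hζ).T v = -kT v.1 v.2 := rfl
@[simp] theorem Dk_f (v : V2) : (Dk ζ hζ).f v = kf v.1 v.2 := rfl
@[simp] theorem Dk_g (v : V2) : (Dk ζ hζ).g v = (g1 v.1 v.2, g2 v.1 v.2) := rfl

include hζ in
theorem Dk_ζ_pow : (Dk ζ hζ).ζ ^ 5 = 1 := hζ.pow_eq_one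

/-- **`Fibres` for the explicit data** (K2a + K2b, helper11). -/
theorem fibres : (Dk ζ hζ).Fibres :=
  Fermat.Agent.S52K2.Gens56.fibres56 (par ζ hζ) (rest ζ hζ (galR ζ hζ)) hζ

/-- If `σ` fixes `ζ`, it commutes with the coordinates of `R`. -/
theorem galR_fix (σ : GQ) (hσ : σ (Dk ζ hζ).ζ = (Dk ζ hζ).ζ) (v : V2) :
    σ ((Dk ζ hζ).xR v) = (Dk ζ hζ).xR (gal σ v) ∧
      σ ((Dk ζ hζ).yR v) = (Dk ζ hζ).yR (gal σ v) := by
  have hσ' : σ ζ = ζ := hσ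
  constructor
  · show σ ((pre (par ζ hζ)).xR v) = _
    rw [gal_xR, sigma_tau, hσ']
    rfl
  · show σ ((pre (par ζ hζ)).yR v) = _
    rw [gal_yR, sigma_tau, sigma_mu, hσ']
    rfl

/-- **`Ext` for the explicit data.** -/
theorem ext : (Dk ζ hζ).Ext :=
  Fermat.Agent.S52K2.Gens56.ext56 (par ζ hζ) (rest ζ hζ (galR ζ hζ)) hζ
    (fun γ hγ => PreKlein.toKleinData_law_det_dvd (rest ζ hζ (galR ζ hζ)) γ hγ)
    (galR_fix ζ hζ)

/-- A primitive fifth root of unity in `ℚ̄`. -/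
theorem exists_zeta : ∃ ζ : Qb, IsPrimitiveRoot ζ 5 := by
  have : NeZero ((5 : ℕ) : Qb) := ⟨by norm_num⟩
  exact HasEnoughRootsOfUnity.exists_primitiveRoot Qb 5

end Fermat.Agent.S52Top.GalR56
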