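/-
S52 programme, brick (K6) (helper13): congruence of Frobenius traces from a Galois-equivariant
embedding of `p`-torsion.

If `W`, `W'` are integral Weierstrass curves satisfying the Eichler–Shimura relation on the generic
fibre (`TraceCong20.RelQbar`, supplied by the S58 programme), `p` is an odd prime, and there is an
injective additive map `W[p](ℚ̄) → W'[p](ℚ̄)` commuting with `Gal(ℚ̄/ℚ)`, and `W[p](ℚ̄) ≠ 0`, then
`a_ℓ(W') ≡ a_ℓ(W) (mod p)` for every prime `ℓ ≠ p` which is good for both models.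
-/
import Mathlib
import Fermat.Agent.ES.Q58.TraceCong20
import Fermat.Agent.Lib.FrobeniusExists

set_option autoImplicit false

open WeierstrassCurve WeierstrassCurve.Affine WeierstrassCurve.Affine.Point

namespace Fermat.Agent.S52Top.ApCong

open Fermat.Agent.ES.Q58.TraceCong20

local notation "Qb" => AlgebraicClosure ℚ
local notation "GQ" => (AlgebraicClosure ℚ ≃ₐ[ℚ] AlgebraicClosure ℚ)

/-- The `n`-torsion of `W(ℚ̄)` (the carrier used by `ModRepIsIrreducible`). -/
abbrev Tors (W : WeierstrassCurve ℤ) (n : ℕ) : Type :=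
  Submodule.torsionBy ℤ ((W.map (Int.castRingHom ℚ))⁄Qb).Point (n : ℤ)

/-- A Galois-equivariant injective additive map between the `n`-torsion modules. -/
def EquivariantEmbedding (W W' : WeierstrassCurve ℤ) (n : ℕ) : Prop :=
  ∃ φ : Tors W n →+ Tors W' n, Function.Injective φ ∧
    ∀ (σ : GQ) (x : Tors W n), φ (σ • x) = σ • φ x

theorem EquivariantEmbedding.refl (W : WeierstrassCurve ℤ) (n : ℕ) :
    EquivariantEmbedding W W n :=
  ⟨AddMonoidHom.id _, Function.injective_id, fun _ _ => rfl⟩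

/-- The relation of `RelQbar` on the torsion module. -/
theorem rel_tors {W : WeierstrassCurve ℤ} (hW : RelQbar W) {r : ℕ} (hr : r.Prime)
    (hgood : W.IsGoodPrimeFor r) {m : ℕ} (hm : Odd m) (hrm : ¬ r ∣ m)
    (P : ValuationSubring Qb) (σ : GQ) (hP : P.LiesOverPrime r) (hσ : P.IsFrobeniusAt σ r)
    (x : Tors W m) :
    σ • σ • x - W.apOfModel r • (σ • x) + r • x = 0 := by
  apply Subtype.ext
  have hx : m • (x : ((W.map (Int.castRingHom ℚ))⁄Qb).Point) = 0 := by
    have := x.2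
    rw [Submodule.mem_torsionBy_iff] at this
    rw [← this, Nat.cast_smul_eq_nsmul]
  exact hW r hr hgood m hm hrm P σ hP hσ _ hx

/-- **(K6)** Congruence of traces of Frobenius from an equivariant embedding of `p`-torsion. -/
theorem apOfModel_congr {W W' : WeierstrassCurve ℤ} (hW : RelQbar W) (hW' : RelQbar W')
    {p : ℕ} (hp : p.Prime) (hp2 : p ≠ 2) (hnt : Nontrivial (Tors W p))
    (hφ : EquivariantEmbedding W W' p)
    {ℓ : ℕ} (hℓ : ℓ.Prime) (hℓp : ℓ ≠ p) (hg : W.IsGoodPrimeFor ℓ) (hg' : W'.IsGoodPrimeFor ℓ) :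
    (p : ℤ) ∣ W'.apOfModel ℓ - W.apOfModel ℓ := by
  obtain ⟨φ, hinj, hequiv⟩ := hφ
  obtain ⟨A, σ, hA, hσ⟩ := Fermat.Agent.Lib.exists_isFrobeniusAt ℓ hℓ
  have hodd : Odd p := hp.odd_of_ne_two hp2
  have hℓp' : ¬ ℓ ∣ p := fun h => hℓp ((Nat.prime_dvd_prime_iff_eq hℓ hp).mp h)
  -- the difference of the traces kills `φ x` for all `x`
  have hkill : ∀ x : Tors W p, (W'.apOfModel ℓ - W.apOfModel ℓ) • x = 0 := by
    intro x
    have h1 := rel_tors hW hℓ hg hodd hℓp' A σ hA hσ x
    have h2 := rel_tors hW' hℓ hg' hodd hℓp' A σ hA hσ (φ x)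
    have h3 : σ • σ • φ x - W.apOfModel ℓ • (σ • φ x) + ℓ • φ x = 0 := by
      have := congrArg φ h1
      rw [_root_.map_zero, map_add, map_sub, map_zsmul, map_nsmul, hequiv, hequiv] at this
      exact this
    have h4 : (W'.apOfModel ℓ - W.apOfModel ℓ) • (σ • φ x) = 0 := by
      rw [sub_smul]
      have := congrArg₂ (· - ·) h3 h2
      simp only [sub_zero] at this
      rw [← this]
      abel
    have h5 : σ • ((W'.apOfModel ℓ - W.apOfModel ℓ) • φ x) = 0 := by
      rw [← h4]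
      exact (DistribSMul.toAddMonoidHom (Tors W' p) σ).map_zsmul _ _
    have h6 : (W'.apOfModel ℓ - W.apOfModel ℓ) • φ x = 0 := by
      have := congrArg (fun y => σ⁻¹ • y) h5
      simpa using this
    apply hinj
    rw [map_zsmul, h6, _root_.map_zero]
  -- a nonzero `p`-torsion point
  obtain ⟨x, hx⟩ := exists_ne (0 : Tors W p)
  by_contra hnd
  have hcop : IsCoprime (p : ℤ) (W'.apOfModel ℓ - W.apOfModel ℓ) := by
    rw [Int.isCoprime_iff_gcd_eq_one]
    have hpz : Prime (p : ℤ) := Nat.prime_iff_prime_int.mp hp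
    exact Int.isCoprime_iff_gcd_eq_one.mp ((Prime.coprime_iff_not_dvd hpz).mpr hnd)
  obtain ⟨a, b, hab⟩ := hcop
  apply hx
  have hpx : (p : ℤ) • x = 0 := Submodule.smul_torsionBy _ x
  calc x = (1 : ℤ) • x := (one_smul _ _).symm
    _ = (a * p + b * (W'.apOfModel ℓ - W.apOfModel ℓ)) • x := by rw [hab]
    _ = a • ((p : ℤ) • x) + b • ((W'.apOfModel ℓ - W.apOfModel ℓ) • x) := by
        rw [add_smul, mul_smul, mul_smul]
    _ = 0 := by rw [hpx, hkill x, smul_zero, smul_zero, add_zero]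

end Fermat.Agent.S52Top.ApCong
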