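/-
S52 programme, glue for brick (K3) (helper13): a Galois-equivariant embedding of `p`-torsion from two
"bases with the same Galois matrices".

If `Q, R` are independent in `W[p](ℚ̄)`, `Q', R'` are independent in `W'[p](ℚ̄)` and every
`σ ∈ Gal(ℚ̄/ℚ)` acts on `(Q, R)` and on `(Q', R')` through the same integer matrix, then
`iQ + jR ↦ iQ' + jR'` is a Galois-equivariant embedding `W[p](ℚ̄) → W'[p](ℚ̄)`.
-/
import Mathlib
import Fermat.Agent.S52Top.ApCong
import Fermat.Agent.DivPoly.CardEq29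

set_option autoImplicit false

open WeierstrassCurve WeierstrassCurve.Affine WeierstrassCurve.Affine.Point

namespace Fermat.Agent.S52Top.GlueBases

open Fermat.Agent.S52Top.ApCong

local notation "Qb" => AlgebraicClosure ℚ
local notation "GQ" => (AlgebraicClosure ℚ ≃ₐ[ℚ] AlgebraicClosure ℚ)

/-- Independence of two elements of an abelian group modulo `p`. -/
def IndepMod {V : Type*} [AddCommGroup V] (p : ℕ) (Q R : V) : Prop :=
  ∀ i j : ℤ, i • Q + j • R = 0 → (p : ℤ) ∣ i ∧ (p : ℤ) ∣ j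

section Abstract

variable {V V' : Type*} [AddCommGroup V] [AddCommGroup V']

/-- `(i, j) ↦ iQ + jR`. -/
def comb (Q R : V) : ℤ × ℤ →+ V :=
  ((zmultiplesHom V) Q).comp (AddMonoidHom.fst ℤ ℤ) +
    ((zmultiplesHom V) R).comp (AddMonoidHom.snd ℤ ℤ)

@[simp] theorem comb_apply (Q R : V) (x : ℤ × ℤ) : comb Q R x = x.1 • Q + x.2 • R := rfl

theorem comb_surjective {p : ℕ} (hp : p.Prime) {Q R : V} (_hQ : (p : ℤ) • Q = 0)
    (_hR : (p : ℤ) • R = 0) (hind : IndepMod p Q R) (hcard : Nat.card V = p ^ 2) :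
    Function.Surjective (comb Q R) := by
  classical
  have : NeZero p := ⟨hp.ne_zero⟩
  have : Finite V := Nat.finite_of_card_ne_zero (by rw [hcard]; exact pow_ne_zero _ hp.ne_zero)
  let f : ZMod p × ZMod p → V := fun x => comb Q R ((x.1.val : ℤ), (x.2.val : ℤ))
  have hf : Function.Injective f := by
    intro x y hxy
    have h0 : comb Q R (((x.1.val : ℤ) - y.1.val), ((x.2.val : ℤ) - y.2.val)) = 0 := by
      have h1 : comb Q R ((x.1.val : ℤ), (x.2.val : ℤ)) =
          comb Q R ((y.1.val : ℤ), (y.2.val : ℤ)) := hxy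
      rw [comb_apply, comb_apply] at h1
      rw [comb_apply]
      simp only [sub_smul]
      rw [← sub_eq_zero] at h1
      rw [← h1]
      abel
    obtain ⟨h1, h2⟩ := hind _ _ h0
    have e1 : x.1 = y.1 := by
      have : ((x.1.val : ℤ) : ZMod p) = ((y.1.val : ℤ) : ZMod p) := by
        rw [← sub_eq_zero, ← Int.cast_sub, ZMod.intCast_zmod_eq_zero_iff_dvd]
        exact h1
      simpa using this
    have e2 : x.2 = y.2 := by
      have : ((x.2.val : ℤ) : ZMod p) = ((y.2.val : ℤ) : ZMod p) := by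
        rw [← sub_eq_zero, ← Int.cast_sub, ZMod.intCast_zmod_eq_zero_iff_dvd]
        exact h2
      simpa using this
    exact Prod.ext e1 e2
  have hcard' : Nat.card V ≤ Nat.card (ZMod p × ZMod p) := by
    rw [hcard, Nat.card_prod, Nat.card_zmod, sq]
  have hbij : Function.Bijective f :=
    (Function.Injective.bijective_of_nat_card_le hf hcard')
  intro v
  obtain ⟨x, hx⟩ := hbij.2 v
  exact ⟨_, hx⟩

theorem ker_comb_le {p : ℕ} {Q R : V} {Q' R' : V'} (hQ' : (p : ℤ) • Q' = 0)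
    (hR' : (p : ℤ) • R' = 0) (hind : IndepMod p Q R) :
    (comb Q R).ker ≤ (comb Q' R').ker := by
  intro x hx
  rw [AddMonoidHom.mem_ker, comb_apply] at hx
  obtain ⟨⟨a, ha⟩, ⟨b, hb⟩⟩ := hind _ _ hx
  rw [AddMonoidHom.mem_ker, comb_apply, ha, hb, mul_smul, mul_smul, smul_comm _ a, smul_comm _ b,
    hQ', hR', smul_zero, smul_zero, add_zero]

/-- The map `iQ + jR ↦ iQ' + jR'`. -/
noncomputable def transfer {p : ℕ} (hp : p.Prime) {Q R : V} (hQ : (p : ℤ) • Q = 0)
    (hR : (p : ℤ) • R = 0) (hind : IndepMod p Q R) (hcard : Nat.card V = p ^ 2) {Q' R' : V'}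
    (hQ' : (p : ℤ) • Q' = 0) (hR' : (p : ℤ) • R' = 0) : V →+ V' :=
  (QuotientAddGroup.lift (comb Q R).ker (comb Q' R') (ker_comb_le hQ' hR' hind)).comp
    (QuotientAddGroup.quotientKerEquivOfSurjective (comb Q R)
      (comb_surjective hp hQ hR hind hcard)).symm.toAddMonoidHom

theorem transfer_comb {p : ℕ} (hp : p.Prime) {Q R : V} (hQ : (p : ℤ) • Q = 0)
    (hR : (p : ℤ) • R = 0) (hind : IndepMod p Q R) (hcard : Nat.card V = p ^ 2) {Q' R' : V'}
    (hQ' : (p : ℤ) • Q' = 0) (hR' : (p : ℤ) • R' = 0) (x : ℤ × ℤ) :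
    transfer hp hQ hR hind hcard hQ' hR' (comb Q R x) = comb Q' R' x := by
  unfold transfer
  rw [AddMonoidHom.comp_apply]
  have : (QuotientAddGroup.quotientKerEquivOfSurjective (comb Q R)
      (comb_surjective hp hQ hR hind hcard)).symm.toAddMonoidHom (comb Q R x) =
      QuotientAddGroup.mk x := by
    change (QuotientAddGroup.quotientKerEquivOfSurjective (comb Q R)
      (comb_surjective hp hQ hR hind hcard)).symm (comb Q R x) = _
    rw [AddEquiv.symm_apply_eq]
    rfl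
  rw [this]
  rfl

theorem transfer_injective {p : ℕ} (hp : p.Prime) {Q R : V} (hQ : (p : ℤ) • Q = 0)
    (hR : (p : ℤ) • R = 0) (hind : IndepMod p Q R) (hcard : Nat.card V = p ^ 2) {Q' R' : V'}
    (hQ' : (p : ℤ) • Q' = 0) (hR' : (p : ℤ) • R' = 0) (hind' : IndepMod p Q' R') :
    Function.Injective (transfer hp hQ hR hind hcard hQ' hR') := by
  rw [injective_iff_map_eq_zero]
  intro v hv
  obtain ⟨x, rfl⟩ := comb_surjective hp hQ hR hind hcard v
  rw [transfer_comb, comb_apply] at hv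
  obtain ⟨⟨a, ha⟩, ⟨b, hb⟩⟩ := hind' _ _ hv
  rw [comb_apply, ha, hb, mul_smul, mul_smul, smul_comm _ a, smul_comm _ b, hQ, hR]
  simp

end Abstract

/-- The discriminant of the base change to `ℚ̄` is nonzero. -/
theorem delta_Qbar_ne_zero {W : WeierstrassCurve ℤ} (hΔ : W.Δ ≠ 0) :
    ((W.map (Int.castRingHom ℚ))⁄Qb).Δ ≠ 0 := by
  intro h
  apply hΔ
  have h1 : ((W.map (Int.castRingHom ℚ)).map (algebraMap ℚ Qb)).Δ = 0 := h
  rw [WeierstrassCurve.map_Δ, WeierstrassCurve.map_Δ] at h1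
  have h2 := (map_eq_zero_iff _ (algebraMap ℚ Qb).injective).mp h1
  simpa using h2

theorem card_tors {W : WeierstrassCurve ℤ} (hΔ : W.Δ ≠ 0) {p : ℕ} (hp : Odd p) :
    Nat.card (Tors W p) = p ^ 2 :=
  Fermat.Agent.DivPoly.CardEq29.card_torsionBy_eq (delta_Qbar_ne_zero hΔ) hp

theorem natCast_smul_tors {W : WeierstrassCurve ℤ} {p : ℕ} (x : Tors W p) : (p : ℤ) • x = 0 :=
  Submodule.smul_torsionBy _ x

/-- **Glue for (K3).** Two independent pairs with the same Galois matrices give an equivariant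
embedding of `p`-torsion. -/
theorem equivariantEmbedding_of_bases {W W' : WeierstrassCurve ℤ} (hΔ : W.Δ ≠ 0) {p : ℕ}
    (hp : p.Prime) (hp2 : p ≠ 2) (Q R : Tors W p) (Q' R' : Tors W' p)
    (hind : IndepMod p Q R) (hind' : IndepMod p Q' R')
    (hgal : ∀ σ : GQ, ∃ a b c d : ℤ, σ • Q = a • Q + b • R ∧ σ • R = c • Q + d • R ∧
      σ • Q' = a • Q' + b • R' ∧ σ • R' = c • Q' + d • R') :
    EquivariantEmbedding W W' p := by
  have hcard := card_tors hΔ (hp.odd_of_ne_two hp2)
  have hQ := natCast_smul_tors Q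
  have hR := natCast_smul_tors R
  have hQ' := natCast_smul_tors Q'
  have hR' := natCast_smul_tors R'
  refine ⟨transfer hp hQ hR hind hcard hQ' hR',
    transfer_injective hp hQ hR hind hcard hQ' hR' hind', fun σ v => ?_⟩
  obtain ⟨x, rfl⟩ := comb_surjective hp hQ hR hind hcard v
  obtain ⟨a, b, c, d, h1, h2, h3, h4⟩ := hgal σ
  have hz : ∀ (n : ℤ) (y : Tors W p), σ • (n • y) = n • (σ • y) := fun n y =>
    (DistribSMul.toAddMonoidHom (Tors W p) σ).map_zsmul n y
  have hz' : ∀ (n : ℤ) (y : Tors W' p), σ • (n • y) = n • (σ • y) := fun n y =>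
    (DistribSMul.toAddMonoidHom (Tors W' p) σ).map_zsmul n y
  have e1 : σ • comb Q R x = comb Q R (x.1 * a + x.2 * c, x.1 * b + x.2 * d) := by
    rw [comb_apply, comb_apply, smul_add, hz, hz, h1, h2]
    simp only [smul_add, add_smul, mul_smul]
    abel
  have e2 : σ • comb Q' R' x = comb Q' R' (x.1 * a + x.2 * c, x.1 * b + x.2 * d) := by
    rw [comb_apply, comb_apply, smul_add, hz', hz', h3, h4]
    simp only [smul_add, add_smul, mul_smul]
    abel
  rw [e1, transfer_comb, transfer_comb, e2]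

/-- Package a point killed by `p` as an element of the torsion module. -/
def toTors {W : WeierstrassCurve ℤ} {p : ℕ} (Q : ((W.map (Int.castRingHom ℚ))⁄Qb).Point)
    (hQ : p • Q = 0) : Tors W p :=
  ⟨Q, by rw [Submodule.mem_torsionBy_iff, Nat.cast_smul_eq_nsmul]; exact hQ⟩

@[simp] theorem coe_toTors {W : WeierstrassCurve ℤ} {p : ℕ}
    (Q : ((W.map (Int.castRingHom ℚ))⁄Qb).Point) (hQ : p • Q = 0) :
    ((toTors Q hQ : Tors W p) : ((W.map (Int.castRingHom ℚ))⁄Qb).Point) = Q := rfl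

/-- **Glue for (K3), version with points of the curve.** -/
theorem equivariantEmbedding_of_points {W W' : WeierstrassCurve ℤ} (hΔ : W.Δ ≠ 0) {p : ℕ}
    (hp : p.Prime) (hp2 : p ≠ 2)
    (Q R : ((W.map (Int.castRingHom ℚ))⁄Qb).Point) (hQ : p • Q = 0) (hR : p • R = 0)
    (Q' R' : ((W'.map (Int.castRingHom ℚ))⁄Qb).Point) (hQ' : p • Q' = 0) (hR' : p • R' = 0)
    (hind : IndepMod p Q R) (hind' : IndepMod p Q' R')
    (hgal : ∀ σ : GQ, ∃ a b c d : ℤ, σ • Q = a • Q + b • R ∧ σ • R = c • Q + d • R ∧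
      σ • Q' = a • Q' + b • R' ∧ σ • R' = c • Q' + d • R') :
    EquivariantEmbedding W W' p := by
  refine equivariantEmbedding_of_bases hΔ hp hp2 (toTors Q hQ) (toTors R hR) (toTors Q' hQ')
    (toTors R' hR') ?_ ?_ ?_
  · intro i j h
    apply hind i j
    have := congrArg (Subtype.val) h
    simpa using this
  · intro i j h
    apply hind' i j
    have := congrArg (Subtype.val) h
    simpa using this
  · intro σ
    obtain ⟨a, b, c, d, h1, h2, h3, h4⟩ := hgal σ
    refine ⟨a, b, c, d, Subtype.ext ?_, Subtype.ext ?_, Subtype.ext ?_, Subtype.ext ?_⟩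
    · have e : ((σ • toTors Q hQ : Tors W p) : ((W.map (Int.castRingHom ℚ))⁄Qb).Point) = σ • Q := rfl
      rw [e, h1]; simp
    · have e : ((σ • toTors R hR : Tors W p) : ((W.map (Int.castRingHom ℚ))⁄Qb).Point) = σ • R := rfl
      rw [e, h2]; simp
    · have e : ((σ • toTors Q' hQ' : Tors W' p) : ((W'.map (Int.castRingHom ℚ))⁄Qb).Point) =
          σ • Q' := rfl
      rw [e, h3]; simp
    · have e : ((σ • toTors R' hR' : Tors W' p) : ((W'.map (Int.castRingHom ℚ))⁄Qb).Point) =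
          σ • R' := rfl
      rw [e, h4]; simp

end Fermat.Agent.S52Top.GlueBases
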