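/-
S52 programme, TOP (helper13): variant of `CoreAsm` in which the K3 input is consumed in the
shape in which brick K3 (`S52K3.Integral.embedding`) delivers it: an
`ApCong.EquivariantEmbedding W W' 5` for every integral model `W'` of a member of the family.

`FamilyData2 W` has the same fields as `CoreAsm.FamilyData W` (so `S52K4.Pencil.exists_pencil`
and `S52K5.Irr.irr_klein` plug in verbatim) except for `emb`.
-/
import Mathlib
import Fermat.Agent.S52Top.CoreAsm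

set_option autoImplicit false

open WeierstrassCurve

namespace Fermat.Agent.S52Top.CoreAsm2

open Fermat.Agent.S52Top.ApCong Fermat.Agent.S52Top.Assembly Fermat.Agent.S52Top.CoreAsm
open Fermat.Agent.S52K4.Model Fermat.Agent.ES.Q58.TraceCong20

/-- What the assembly needs to know about the family `E_t` attached to `W`
(bricks K3, K4b, K5); `emb` in the shape of `S52K3.Integral.embedding`. -/
structure FamilyData2 (W : WeierstrassCurve ℤ) : Type where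
  /-- `c₄` of the member with parameter `t` -/
  C4 : ℤ → ℚ
  /-- `c₆` of the member with parameter `t` -/
  C6 : ℤ → ℚ
  h40 : C4 0 = W.c₄
  h60 : C6 0 = W.c₆
  cont4 : AdicCont C4
  cont6 : AdicCont C6
  /-- (K4b) outside `30 Δ(W)` the invariants of a member are never both divisible by `ℓ` -/
  hloc : ∀ ℓ : ℕ, ℓ.Prime → ¬ (ℓ : ℤ) ∣ 30 * W.Δ → ∀ t x4 x6 : ℤ,
    (x4 : ℚ) = C4 t → (x6 : ℚ) = C6 t → ¬ ((ℓ : ℤ) ∣ x4 ∧ (ℓ : ℤ) ∣ x6)
  /-- (K3) Galois-equivariant embedding of the `5`-torsion into any integral model of a member -/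
  emb : ∀ (t : ℤ) (W' : WeierstrassCurve ℤ), W'.Δ ≠ 0 → (W'.c₄ : ℚ) = C4 t →
    (W'.c₆ : ℚ) = C6 t → EquivariantEmbedding W W' 5
  /-- (K5) for every modulus `N` there are an auxiliary prime `q ∤ N` and a residue class `tq`
  modulo `q` such that every integral model of a member with `t ≡ tq (mod q)` (of the shape
  produced by K4) has irreducible `3`-torsion -/
  irr : ∀ N : ℤ, 0 < N → ∃ (q : ℕ) (tq : ℤ), q.Prime ∧ ¬ (q : ℤ) ∣ N ∧
    ∀ t : ℤ, (q : ℤ) ∣ t - tq → ∀ W' : WeierstrassCurve ℤ, W'.Δ ≠ 0 → W'.IsSemistableModel →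
      (W'.c₄ : ℚ) = C4 t → (W'.c₆ : ℚ) = C6 t →
      W'.a₁ = W.a₁ → W'.a₂ = W.a₂ → W'.a₃ = W.a₃ →
      (30 * W.Δ ^ 2 ∣ W'.a₄ - W.a₄) → (30 * W.Δ ^ 2 ∣ W'.a₆ - W.a₆) →
      W'.ModRepIsIrreducible 3

/-- The conclusion of `Core` for one `W` from a `FamilyData2 W`. -/
theorem exists_of_family2 (W : WeierstrassCurve ℤ) (hΔ : W.Δ ≠ 0) (hW : W.IsSemistableModel)
    (F : FamilyData2 W) :
    ∃ W' : WeierstrassCurve ℤ, W'.Δ ≠ 0 ∧ W'.IsSemistableModel ∧ W'.ModRepIsIrreducible 3 ∧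
      EquivariantEmbedding W W' 5 := by
  obtain ⟨N, hN, hmodel⟩ :=
    exists_semistable_model W hΔ hW F.C4 F.C6 F.h40 F.h60 F.cont4 F.cont6 F.hloc
  obtain ⟨q, tq, hq, hqN, hirr⟩ := F.irr N hN
  obtain ⟨t, hNt, hqt⟩ := exists_crt hq hqN tq
  obtain ⟨W', hΔ', hss', h4', h6', ha1, ha2, ha3, ha4, ha6⟩ := hmodel t hNt
  exact ⟨W', hΔ', hss', hirr t hqt W' hΔ' hss' h4' h6' ha1 ha2 ha3 ha4 ha6,
    F.emb t W' hΔ' h4' h6'⟩

/-- **`Core` from the family bricks** (K3 in `EquivariantEmbedding` shape). -/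
theorem core_of_family2
    (hfam : ∀ W : WeierstrassCurve ℤ, W.Δ ≠ 0 → W.IsSemistableModel →
      W.ModRepIsIrreducible 5 → ¬ W.ModRepIsIrreducible 3 → Nonempty (FamilyData2 W)) :
    Core := by
  intro W hΔ hW h5 h3
  obtain ⟨F⟩ := hfam W hΔ hW h5 h3
  exact exists_of_family2 W hΔ hW F

/-- **S52 from `RelQbar` and the family bricks.** -/
theorem s52_of_family2 (hrel : ∀ W : WeierstrassCurve ℤ, RelQbar W)
    (hfam : ∀ W : WeierstrassCurve ℤ, W.Δ ≠ 0 → W.IsSemistableModel →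
      W.ModRepIsIrreducible 5 → ¬ W.ModRepIsIrreducible 3 → Nonempty (FamilyData2 W))
    (W : WeierstrassCurve ℤ) (hΔ : W.Δ ≠ 0) (hW : W.IsSemistableModel)
    (h5 : W.ModRepIsIrreducible 5) :
    ∃ W' : WeierstrassCurve ℤ, W'.Δ ≠ 0 ∧ W'.IsSemistableModel ∧ W'.ModRepIsIrreducible 3 ∧
      ∀ ℓ : ℕ, ℓ.Prime → W.IsGoodPrimeFor ℓ → W'.IsGoodPrimeFor ℓ → ℓ ≠ 5 →
        (5 : ℤ) ∣ (W'.apOfModel ℓ - W.apOfModel ℓ) :=
  s52_of_core hrel (core_of_family2 hfam) W hΔ hW h5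

end Fermat.Agent.S52Top.CoreAsm2
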