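/-
S52 programme, TOP (helper61, integrator): the KLEIN-LEVEL WIRING.

From a `KleinData` `D` (brick K1/B0/B1 + adapter) with `D.Fibres` (K2), `D.Ext` (K2/K5 extras) and
the bridge to the explicit forms (`D.H = kH`, `D.T = s kT` with `s = ±1`, `D.g = (∂f/∂z₂, -∂f/∂z₁)`,
`ζ⁵ = 1`) we build, for every semistable `W` with `Δ ≠ 0`, the `FamilyData2 W` of `CoreAsm2`
(helper13), by plugging together

* `S52K.SemistableC4C6.c4_c6_ne_zero`      (helper3)  : `c₄, c₆ ≠ 0`;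
* `KleinData.Fibres.exists_v`               (K2a, helper11) : the base point `v₀`;
* `S52K3.Descent.rational_H / rational_T`   (K3, helper6)  : rationality of the family;
* `S52K4.Pencil.exists_pencil`              (K4, helper96) : `C4, C6 ∈ ℚ[t]`, continuity, `hloc`;
* `S52K3.Integral.embedding`                (K3, helper6)  : the equivariant embedding;
* `S52K5.Rho.irr_of_kleinData`              (K5, helper64) : irreducibility of `W'[3]`.

Hence `core_of_klein : Core` and `s52_of_klein` (the frozen conclusion of S52, given `RelQbar`).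
-/
import Mathlib
import Fermat.Agent.S52Top.CoreAsm2
import Fermat.Agent.S52K3.Integral
import Fermat.Agent.S52K3.IfaceExt
import Fermat.Agent.S52K4.Pencil
import Fermat.Agent.S52K5.Rho
import Fermat.Agent.S52K.SemistableC4C6
import Fermat.Agent.S52K2.FibresOfData

set_option autoImplicit false

open WeierstrassCurve Polynomial

namespace Fermat.Agent.S52Top.KleinCore61

open Fermat.Agent.S52K3 Fermat.Agent.S52K3.Descent Fermat.Agent.S52K4.Klein
open Fermat.Agent.S52K4.Model Fermat.Agent.S52Top.CoreAsm2 Fermat.Agent.S52Top.Assembly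
open Fermat.Agent.S52Top.ApCong Fermat.Agent.ES.Q58.TraceCong20

/-- The bridge between an abstract `KleinData` and the explicit Klein forms of `S52K4.Klein`
(which are ring-equal to those of `S52K2.Forms`). -/
structure Bridge (D : KleinData) (s : ℤ) : Prop where
  hs : s = 1 ∨ s = -1
  H_eq : ∀ v : V2, D.H v = kH v.1 v.2
  T_eq : ∀ v : V2, D.T v = (s : Qb) * kT v.1 v.2
  g_eq : ∀ v : V2, D.g v = (kf2 v.1 v.2, -kf1 v.1 v.2)
  zeta5 : D.ζ ^ 5 = 1

theorem cast_rat_int (t : ℤ) : (((t : ℚ)) : Qb) = (t : Qb) := by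
  push_cast; rfl

theorem algebraMap_rat (q : ℚ) : algebraMap ℚ Qb q = (q : Qb) := eq_ratCast _ q

/-- the family in coordinates -/
theorem fam_coords {D : KleinData} {s : ℤ} (B : Bridge D s) (v₀ : V2) (x : ℚ) :
    fam D v₀ x = (v₀.1 + (x : Qb) * kf2 v₀.1 v₀.2, v₀.2 + (x : Qb) * -kf1 v₀.1 v₀.2) := by
  unfold fam
  rw [B.g_eq, algebraMap_rat]
  ext
  · simp [smul_eq_mul]
  · simp [smul_eq_mul]

/-- **The family data of `CoreAsm2` from a bridged `KleinData`.** -/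
theorem familyData2_of_klein (D : KleinData) (hD : D.Fibres) (hE : D.Ext) {s : ℤ}
    (B : Bridge D s) (W : WeierstrassCurve ℤ) (hΔ : W.Δ ≠ 0) (hss : W.IsSemistableModel) :
    Nonempty (FamilyData2 W) := by
  obtain ⟨hc4, hc6⟩ := Fermat.Agent.S52K.SemistableC4C6.c4_c6_ne_zero W hΔ hss
  have hs2 : ((s : Qb)) * s = 1 := by rcases B.hs with rfl | rfl <;> norm_num
  -- the discriminant relation over `ℚ̄`
  have hrel : (1728 : Qb) * (W.Δ : Qb) = (W.c₄ : Qb) ^ 3 - (W.c₆ : Qb) ^ 2 := by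
    exact_mod_cast congrArg (Int.cast : ℤ → Qb) W.c_relation
  have hne : (-((W.c₄ : ℤ) : Qb)) ^ 3 + ((W.c₆ : ℤ) : Qb) ^ 2 ≠ 0 := by
    intro h
    have h1 : (1728 : Qb) * (W.Δ : Qb) = 0 := by rw [hrel]; linear_combination -h
    rcases mul_eq_zero.mp h1 with h2 | h2
    · norm_num at h2
    · exact hΔ (by exact_mod_cast h2)
  -- the base point
  obtain ⟨v₀, hH, hT⟩ := hD.exists_v (-((W.c₄ : ℤ) : Qb)) ((W.c₆ : ℤ) : Qb) hne
  have hkH : kH v₀.1 v₀.2 = -(W.c₄ : Qb) := by rw [← B.H_eq]; exact hH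
  have hkT : kT v₀.1 v₀.2 = s * (W.c₆ : Qb) := by
    have h := B.T_eq v₀
    rw [hT] at h
    rw [h, ← mul_assoc, hs2, one_mul]
  have hf0 : D.f v₀ ≠ 0 := (f_ne_zero_iff D v₀).mpr (by rw [hH, hT]; exact hne)
  have hH0 : D.H v₀ ≠ 0 := by
    rw [hH]; exact neg_ne_zero.mpr (by exact_mod_cast hc4)
  have hT0 : D.T v₀ ≠ 0 := by rw [hT]; exact_mod_cast hc6
  have hHr : ∀ σ : GQ, σ (D.H v₀) = D.H v₀ := by
    intro σ; rw [hH, map_neg, map_intCast]
  have hTr : ∀ σ : GQ, σ (D.T v₀) = D.T v₀ := by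
    intro σ; rw [hT, map_intCast]
  have hkf : kf v₀.1 v₀.2 ≠ 0 := by
    intro h
    have h5 := Fermat.Agent.S52K4.Main.kf_pow_five_eq W B.hs hkH hkT
    rw [h] at h5
    have : ((W.Δ : ℤ) : Qb) = 0 := by
      have h6 : (0 : Qb) ^ 5 = 0 := by norm_num
      rw [h6] at h5
      exact neg_eq_zero.mp h5.symm
    exact hΔ (by exact_mod_cast this)
  -- rationality of the family at integer parameters
  have hrat4 : ∀ t : ℤ, ∃ c : ℚ,
      (c : Qb) = -kH (v₀.1 + t * kf2 v₀.1 v₀.2) (v₀.2 + t * -kf1 v₀.1 v₀.2) := by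
    intro t
    obtain ⟨q, hq⟩ := rational_H D hD hf0 hH0 hT0 hHr hTr (t : ℚ)
    rw [fam_coords B, B.H_eq, algebraMap_rat, cast_rat_int] at hq
    exact ⟨-q, by rw [Rat.cast_neg, hq]⟩
  have hrat6 : ∀ t : ℤ, ∃ c : ℚ,
      (c : Qb) = kT (v₀.1 + t * kf2 v₀.1 v₀.2) (v₀.2 + t * -kf1 v₀.1 v₀.2) := by
    intro t
    obtain ⟨q, hq⟩ := rational_T D hD hf0 hH0 hT0 hHr hTr (t : ℚ)
    rw [fam_coords B, B.T_eq, algebraMap_rat, cast_rat_int] at hq
    refine ⟨(s : ℚ) * q, ?_⟩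
    rw [Rat.cast_mul, hq, Rat.cast_intCast, ← mul_assoc, hs2, one_mul]
  -- the pencil
  obtain ⟨Q4, Q6, a4, a6, h40, h60, cont4, cont6, hloc⟩ :=
    Fermat.Agent.S52K4.Pencil.exists_pencil W B.hs hkH hkT hrat4 hrat6
  -- values of the family at integer parameters, in terms of `D`
  have eval_cast : ∀ (Q : ℚ[X]) (t : ℤ), ((Q.eval (t : ℚ) : ℚ) : Qb) = aeval (t : Qb) Q := by
    intro Q t
    rw [← cast_rat_int, ← algebraMap_rat (t : ℚ), Polynomial.aeval_algebraMap_apply_eq_algebraMap_eval,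
      algebraMap_rat]
  have hDH : ∀ t : ℤ, D.H (fam D v₀ (t : ℚ)) = -((Q4.eval (t : ℚ) : ℚ) : Qb) := by
    intro t
    rw [eval_cast, a4, neg_neg, fam_coords B, B.H_eq, cast_rat_int]
  have hDT : ∀ t : ℤ, D.T (fam D v₀ (t : ℚ)) = ((Q6.eval (t : ℚ) : ℚ) : Qb) := by
    intro t
    rw [eval_cast, a6, fam_coords B, B.T_eq, cast_rat_int]
  refine ⟨{
    C4 := fun t => Q4.eval (t : ℚ)
    C6 := fun t => Q6.eval (t : ℚ)
    h40 := by simpa using h40
    h60 := by simpa using h60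
    cont4 := cont4
    cont6 := cont6
    hloc := hloc
    emb := ?_
    irr := ?_ }⟩
  · intro t W' hΔ' h4' h6'
    refine Fermat.Agent.S52K3.Integral.embedding D hD W W' hΔ hΔ' hc4 hc6 hH hT (t : ℚ) ?_ ?_
    · rw [hDH t, ← h4']; push_cast; rfl
    · rw [hDT t, ← h6']; push_cast; rfl
  · intro N hN
    obtain ⟨q, tq, hq, hqN, hirr⟩ :=
      Fermat.Agent.S52K5.Rho.irr_of_kleinData D hD hE B.zeta5 W hΔ hss hH hT
        (c := 1) (z₁ := v₀.1) (z₂ := v₀.2) (by norm_num) (by rw [one_mul]) (by rw [one_mul])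
        hkf Q4 Q6 a4 a6 N hN
    exact ⟨q, tq, hq, hqN, fun t ht W' hΔ' _ h4' h6' _ _ _ _ _ => hirr t ht W' hΔ' h4' h6'⟩

/-- **`Core` from a bridged `KleinData`.** -/
theorem core_of_klein (D : KleinData) (hD : D.Fibres) (hE : D.Ext) {s : ℤ} (B : Bridge D s) :
    Core :=
  core_of_family2 (fun W hΔ hW _ _ => familyData2_of_klein D hD hE B W hΔ hW)

/-- **The frozen conclusion of S52 from `RelQbar` and a bridged `KleinData`.** -/
theorem s52_of_klein (hrel : ∀ W : WeierstrassCurve ℤ, RelQbar W)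
    (D : KleinData) (hD : D.Fibres) (hE : D.Ext) {s : ℤ} (B : Bridge D s)
    (W : WeierstrassCurve ℤ) (hΔ : W.Δ ≠ 0) (hW : W.IsSemistableModel)
    (h5 : W.ModRepIsIrreducible 5) :
    ∃ W' : WeierstrassCurve ℤ, W'.Δ ≠ 0 ∧ W'.IsSemistableModel ∧ W'.ModRepIsIrreducible 3 ∧
      ∀ ℓ : ℕ, ℓ.Prime → W.IsGoodPrimeFor ℓ → W'.IsGoodPrimeFor ℓ → ℓ ≠ 5 →
        (5 : ℤ) ∣ (W'.apOfModel ℓ - W.apOfModel ℓ) :=
  s52_of_core hrel (core_of_klein D hD hE B) W hΔ hW h5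

section OfGens

open Fermat.Agent.S52K2.FibresOfData

/-- The bridge from the `Gens` structure of K2 (helper11), given in addition the shape of `g`. -/
theorem bridge_of_gens {D : KleinData} (G : Gens D)
    (g_eq : ∀ v : V2, D.g v = (kf2 v.1 v.2, -kf1 v.1 v.2)) :
    ∃ s : ℤ, Bridge D s := by
  have hζ : D.ζ ^ 5 = 1 := G.hζ.pow_eq_one
  have hH : ∀ v : V2, D.H v = kH v.1 v.2 := fun v => by
    rw [G.H_eq, Fermat.Agent.S52K4.Pencil.kH_eq_Hf]
  have hs : G.s = 1 ∨ G.s = -1 := by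
    have h := G.hs
    have h1 : (G.s - 1) * (G.s + 1) = 0 := by linear_combination h
    rcases mul_eq_zero.mp h1 with h2 | h2
    · left; linear_combination h2
    · right; linear_combination h2
  rcases hs with h1 | h1
  · refine ⟨1, Or.inl rfl, hH, fun v => ?_, g_eq, hζ⟩
    rw [G.T_eq, h1, Fermat.Agent.S52K4.Pencil.kT_eq_Tf]; norm_num
  · refine ⟨-1, Or.inr rfl, hH, fun v => ?_, g_eq, hζ⟩
    rw [G.T_eq, h1, Fermat.Agent.S52K4.Pencil.kT_eq_Tf]; norm_num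

/-- **S52 from `RelQbar`, the K2 generators package, the `Ext` facts and the shape of `g`.** -/
theorem s52_of_gens (hrel : ∀ W : WeierstrassCurve ℤ, RelQbar W)
    {D : KleinData} (G : Gens D) (hE : D.Ext)
    (g_eq : ∀ v : V2, D.g v = (kf2 v.1 v.2, -kf1 v.1 v.2))
    (W : WeierstrassCurve ℤ) (hΔ : W.Δ ≠ 0) (hW : W.IsSemistableModel)
    (h5 : W.ModRepIsIrreducible 5) :
    ∃ W' : WeierstrassCurve ℤ, W'.Δ ≠ 0 ∧ W'.IsSemistableModel ∧ W'.ModRepIsIrreducible 3 ∧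
      ∀ ℓ : ℕ, ℓ.Prime → W.IsGoodPrimeFor ℓ → W'.IsGoodPrimeFor ℓ → ℓ ≠ 5 →
        (5 : ℤ) ∣ (W'.apOfModel ℓ - W.apOfModel ℓ) := by
  obtain ⟨s, B⟩ := bridge_of_gens G g_eq
  exact s52_of_klein hrel D G.fibres hE B W hΔ hW h5

end OfGens

end Fermat.Agent.S52Top.KleinCore61
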