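/-
S52 / programme K (helper13): the torsion fields `fiveQ`, `fiveR`, `indep` of `PreKlein.Rest` for the
explicit Klein data (`Inst56.pre`), by transport from brick B1 (`TorsBasis65`, helper65) applied to
`Klein56.kleinPts` (helper56); and the resulting `KleinData` `D56`, with the field `galR` taken as
a hypothesis (brick B0-G).

Main declarations (namespace `Fermat.Agent.S52Top.Rest56`):

* `par ζ hζ : Inst56.Par` for a primitive fifth root of unity `ζ`;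
* `fiveQ`, `fiveR`, `indep` : the three torsion fields for `Inst56.pre (par ζ hζ)`;
* `GalR ζ hζ : Prop` : the statement of the field `galR`;
* `rest ζ hζ hgal : (Inst56.pre (par ζ hζ)).Rest`, `D56 ζ hζ hgal : S52K3.KleinData`;
* `D56_ζ_pow`, `D56_H`, `D56_T`, `D56_f`, `D56_g`, … : unfolding lemmas (all `rfl`);
* `ext_law_det` : the field `law_det` of `KleinData.Ext (D56 …)`.
-/
import Mathlib
import Fermat.Agent.S52Top.Inst56
import Fermat.Agent.S52K.Klein56.Pts56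

set_option autoImplicit false

open WeierstrassCurve WeierstrassCurve.Affine

namespace Fermat.Agent.S52Top.Rest56

open Fermat.Agent.S52K3 Fermat.Agent.S52K.Klein56 Fermat.Agent.S52Top.LawComp
open Fermat.Agent.S52Top.Inst56
open Fermat.Agent.S52K

/-! ### Transport from `TorsBasis65.E h t` to `kleinCurve h (-t)` -/

theorem E_eq_kleinCurve (h t : Qb) : TorsBasis65.E h t = kleinCurve h (-t) := by
  unfold TorsBasis65.E kleinCurve
  congr 1
  ring

theorem five_of {W : Affine Qb} {h t : Qb} (hW : W = TorsBasis65.E h t) {x y : Qb}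
    (n : W.Nonsingular x y) (h5 : 5 • TorsBasis65.pt (TorsBasis65.E h t) x y = 0) :
    (5 : ℕ) • (Point.some x y n : W.Point) = 0 := by
  subst hW
  rw [TorsBasis65.pt_of n] at h5
  exact h5

theorem indep_of {W : Affine Qb} {h t : Qb} (hW : W = TorsBasis65.E h t) {x y x' y' : Qb}
    (n : W.Nonsingular x y) (n' : W.Nonsingular x' y') (a b : ℤ)
    (hi : a • TorsBasis65.pt (TorsBasis65.E h t) x y +
      b • TorsBasis65.pt (TorsBasis65.E h t) x' y' = 0 → (5 : ℤ) ∣ a ∧ (5 : ℤ) ∣ b) :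
    a • (Point.some x y n : W.Point) + b • (Point.some x' y' n' : W.Point) = 0 →
      (5 : ℤ) ∣ a ∧ (5 : ℤ) ∣ b := by
  subst hW
  rw [TorsBasis65.pt_of n, TorsBasis65.pt_of n'] at hi
  exact hi

/-! ### Parameters from a primitive root -/

variable (ζ : Qb) (hζ : IsPrimitiveRoot ζ 5)

include hζ in
theorem cyclo : ζ ^ 4 + ζ ^ 3 + ζ ^ 2 + ζ + 1 = 0 := by
  have := hζ.geom_sum_eq_zero (by norm_num)
  simp only [Finset.sum_range_succ, Finset.sum_range_zero, pow_zero, pow_one, zero_add] at this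
  linear_combination this

/-- The parameters attached to `ζ`. -/
noncomputable def par : Par := Par.ofPrimitiveRoot ζ hζ

@[simp] theorem par_ζ : (par ζ hζ).ζ = ζ := rfl
@[simp] theorem par_τ : (par ζ hζ).τ = tauOf ζ := rfl
@[simp] theorem par_μ : (par ζ hζ).μ = muOf ζ := rfl

/-- The `KleinPts` of `Pts56`. -/
noncomputable def K56 : TorsBasis65.KleinPts Qb := kleinPts ζ (cyclo ζ hζ)

theorem mem_fib (v : V2) : v ∈ (K56 ζ hζ).Fib (kH v.1 v.2) (kT v.1 v.2) := ⟨rfl, rfl⟩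

theorem disc_ne {v : V2} (hv : (pre (par ζ hζ)).f v ≠ 0) :
    kT v.1 v.2 ^ 2 + kH v.1 v.2 ^ 3 ≠ 0 := by
  rw [syzygy]
  exact mul_ne_zero (by norm_num) (pow_ne_zero _ hv)

theorem curve_eq (v : V2) :
    kleinCurve ((pre (par ζ hζ)).H v) ((pre (par ζ hζ)).T v) =
      TorsBasis65.E (kH v.1 v.2) (kT v.1 v.2) := by
  rw [E_eq_kleinCurve]
  rfl

theorem fiveQ (v : V2) (hv : (pre (par ζ hζ)).f v ≠ 0) :
    (5 : ℕ) • (Point.some ((pre (par ζ hζ)).xQ v) ((pre (par ζ hζ)).yQ v)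
      ((pre (par ζ hζ)).nonsingQ v hv) :
      (kleinCurve ((pre (par ζ hζ)).H v) ((pre (par ζ hζ)).T v)).Point) = 0 :=
  five_of (curve_eq ζ hζ v) _
    (TorsBasis65.KleinPts.five_nsmul_Qp (D := K56 ζ hζ) (mem_fib ζ hζ v) (disc_ne ζ hζ hv))

theorem fiveR (v : V2) (hv : (pre (par ζ hζ)).f v ≠ 0) :
    (5 : ℕ) • (Point.some ((pre (par ζ hζ)).xR v) ((pre (par ζ hζ)).yR v)
      ((pre (par ζ hζ)).nonsingR v hv) :
      (kleinCurve ((pre (par ζ hζ)).H v) ((pre (par ζ hζ)).T v)).Point) = 0 :=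
  five_of (curve_eq ζ hζ v) _
    (TorsBasis65.KleinPts.five_nsmul_Rp (D := K56 ζ hζ) (mem_fib ζ hζ v) (disc_ne ζ hζ hv))

theorem indep (v : V2) (hv : (pre (par ζ hζ)).f v ≠ 0) (a b : ℤ) :
    a • (Point.some ((pre (par ζ hζ)).xQ v) ((pre (par ζ hζ)).yQ v)
      ((pre (par ζ hζ)).nonsingQ v hv) :
      (kleinCurve ((pre (par ζ hζ)).H v) ((pre (par ζ hζ)).T v)).Point) +
      b • (Point.some ((pre (par ζ hζ)).xR v) ((pre (par ζ hζ)).yR v)
        ((pre (par ζ hζ)).nonsingR v hv) :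
        (kleinCurve ((pre (par ζ hζ)).H v) ((pre (par ζ hζ)).T v)).Point) = 0 →
    (5 : ℤ) ∣ a ∧ (5 : ℤ) ∣ b :=
  indep_of (curve_eq ζ hζ v) _ _ a b
    (TorsBasis65.KleinPts.indep (D := K56 ζ hζ) (mem_fib ζ hζ v) (disc_ne ζ hζ hv))

/-! ### The `KleinData` -/

/-- The statement of the field `galR` for the explicit data (brick B0-G). -/
def GalR : Prop :=
  ∀ σ : GQ, ∃ e : ℤ, ∀ (v : V2) (hv : (pre (par ζ hζ)).f (gal σ v) ≠ 0),
    PtEq (kleinCurve ((pre (par ζ hζ)).H (gal σ v)) ((pre (par ζ hζ)).T (gal σ v)))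
      (σ ((pre (par ζ hζ)).xR v)) (σ ((pre (par ζ hζ)).yR v))
      (e • (Point.some ((pre (par ζ hζ)).xR (gal σ v)) ((pre (par ζ hζ)).yR (gal σ v))
        ((pre (par ζ hζ)).nonsingR (gal σ v) hv)))

/-- The remaining fields of `KleinData` for the explicit data. -/
noncomputable def rest (hgal : GalR ζ hζ) : (pre (par ζ hζ)).Rest where
  ζ := ζ
  gal_H := gal_H _
  gal_T := gal_T _
  gal_g := gal_g _
  gal_xQ := gal_xQ _
  gal_yQ := gal_yQ _
  scal_H := scal_H (par ζ hζ)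
  scal_T := scal_T (par ζ hζ)
  scal_g := scal_g (par ζ hζ)
  scal_xQ := scal_xQ (par ζ hζ)
  scal_yQ := scal_yQ (par ζ hζ)
  scal_xR := scal_xR (par ζ hζ)
  scal_yR := scal_yR (par ζ hζ)
  fiveQ := fiveQ ζ hζ
  fiveR := fiveR ζ hζ
  indep := indep ζ hζ
  galR := hgal

/-- **The explicit `KleinData`.** -/
noncomputable def D56 (hgal : GalR ζ hζ) : KleinData := PreKlein.toKleinData (rest ζ hζ hgal)

variable (hgal : GalR ζ hζ)

@[simp] theorem D56_ζ : (D56 ζ hζ hgal).ζ = ζ := rfl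
@[simp] theorem D56_Γ : (D56 ζ hζ hgal).Γ = (pre (par ζ hζ)).Gam := rfl
@[simp] theorem D56_H (v : V2) : (D56 ζ hζ hgal).H v = kH v.1 v.2 := rfl
@[simp] theorem D56_T (v : V2) : (D56 ζ hζ hgal).T v = -kT v.1 v.2 := rfl
@[simp] theorem D56_f (v : V2) : (D56 ζ hζ hgal).f v = kf v.1 v.2 := rfl
@[simp] theorem D56_g (v : V2) : (D56 ζ hζ hgal).g v = (g1 v.1 v.2, g2 v.1 v.2) := rfl
@[simp] theorem D56_xQ (v : V2) : (D56 ζ hζ hgal).xQ v = xN v.1 v.2 := rfl
@[simp] theorem D56_yQ (v : V2) : (D56 ζ hζ hgal).yQ v = yN v.1 v.2 := rfl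
@[simp] theorem D56_xR (v : V2) : (D56 ζ hζ hgal).xR v = xM (tauOf ζ) v.1 v.2 := rfl
@[simp] theorem D56_yR (v : V2) :
    (D56 ζ hζ hgal).yR v = muOf ζ * ytM (tauOf ζ) v.1 v.2 := rfl

include hζ in
theorem D56_ζ_pow : (D56 ζ hζ hgal).ζ ^ 5 = 1 := hζ.pow_eq_one

theorem D56_isPrimitiveRoot : IsPrimitiveRoot (D56 ζ hζ hgal).ζ 5 := hζ

theorem S_mem : Slin (par ζ hζ) ∈ (D56 ζ hζ hgal).Γ := S_mem_gam _

theorem T5_mem : T5lin (par ζ hζ) ∈ (D56 ζ hζ hgal).Γ := T5_mem_gam _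

/-- The field `law_det` of `KleinData.Ext (D56 …)` (stated without importing `IfaceExt`). -/
theorem ext_law_det (γ : V2 →ₗ[Qb] V2) (hγ : γ ∈ (D56 ζ hζ hgal).Γ) :
    ∃ a b c d : ℤ, (5 : ℤ) ∣ a * d - b * c - 1 ∧ (pre (par ζ hζ)).LawAt γ a b c d :=
  PreKlein.toKleinData_law_det_dvd (rest ζ hζ hgal) γ hγ

end Fermat.Agent.S52Top.Rest56
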