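/-
S52 programme, top assembly (helper13).

`s52_of_core`: the 3–5 switch (frozen statement S52) from
* `hrel`  : the Eichler–Shimura relation on the generic fibre for every integral Weierstrass curve
            (`TraceCong20.RelQbar`, S58 programme), and
* `hcore` : the existence, for a semistable `W` with `W[5]` irreducible and `W[3]` reducible, of a
            semistable `W'` with `W'[3]` irreducible and a Galois-equivariant embedding
            `W[5](ℚ̄) → W'[5](ℚ̄)` (bricks K1–K5 of the S52 plan).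
-/
import Mathlib
import Fermat.Prelude.Def_FLTPrelim_ModularRep
import Fermat.Agent.S52Top.ApCong

set_option autoImplicit false

open WeierstrassCurve WeierstrassCurve.Affine WeierstrassCurve.Affine.Point

namespace Fermat.Agent.S52Top.Assembly

open Fermat.Agent.ES.Q58.TraceCong20 Fermat.Agent.S52Top.ApCong

/-- The geometric core of the 3–5 switch (bricks K1–K5). -/
def Core : Prop :=
  ∀ W : WeierstrassCurve ℤ, W.Δ ≠ 0 → W.IsSemistableModel → W.ModRepIsIrreducible 5 →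
    ¬ W.ModRepIsIrreducible 3 →
    ∃ W' : WeierstrassCurve ℤ, W'.Δ ≠ 0 ∧ W'.IsSemistableModel ∧ W'.ModRepIsIrreducible 3 ∧
      EquivariantEmbedding W W' 5

/-- The conclusion of the frozen statement S52 for a given `W`. -/
def Conclusion (W : WeierstrassCurve ℤ) : Prop :=
  ∃ W' : WeierstrassCurve ℤ, W'.Δ ≠ 0 ∧ W'.IsSemistableModel ∧ W'.ModRepIsIrreducible 3 ∧
    ∀ ℓ : ℕ, ℓ.Prime → W.IsGoodPrimeFor ℓ → W'.IsGoodPrimeFor ℓ → ℓ ≠ 5 →
      (5 : ℤ) ∣ (W'.apOfModel ℓ - W.apOfModel ℓ)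

/-- Case A: if `W[3]` is already irreducible, `W' := W` works. -/
theorem conclusion_of_irreducible_three (W : WeierstrassCurve ℤ) (hΔ : W.Δ ≠ 0)
    (hW : W.IsSemistableModel) (h3 : W.ModRepIsIrreducible 3) : Conclusion W :=
  ⟨W, hΔ, hW, h3, fun ℓ _ _ _ _ => by rw [sub_self]; exact dvd_zero _⟩

/-- From an equivariant embedding of `5`-torsion to the conclusion. -/
theorem conclusion_of_embedding {W W' : WeierstrassCurve ℤ} (hrelW : RelQbar W)
    (hrelW' : RelQbar W') (h5 : W.ModRepIsIrreducible 5) (hΔ' : W'.Δ ≠ 0)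
    (hW' : W'.IsSemistableModel) (h3' : W'.ModRepIsIrreducible 3)
    (hφ : EquivariantEmbedding W W' 5) : Conclusion W := by
  refine ⟨W', hΔ', hW', h3', fun ℓ hℓ hg hg' hℓ5 => ?_⟩
  have hnt : Nontrivial (Tors W 5) := h5.1
  exact apOfModel_congr hrelW hrelW' Nat.prime_five (by norm_num) hnt hφ hℓ hℓ5 hg hg'

/-- **Top assembly of S52.** -/
theorem s52_of_core (hrel : ∀ W : WeierstrassCurve ℤ, RelQbar W) (hcore : Core)
    (W : WeierstrassCurve ℤ) (hΔ : W.Δ ≠ 0) (hW : W.IsSemistableModel)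
    (h5 : W.ModRepIsIrreducible 5) :
    ∃ W' : WeierstrassCurve ℤ, W'.Δ ≠ 0 ∧ W'.IsSemistableModel ∧ W'.ModRepIsIrreducible 3 ∧
      ∀ ℓ : ℕ, ℓ.Prime → W.IsGoodPrimeFor ℓ → W'.IsGoodPrimeFor ℓ → ℓ ≠ 5 →
        (5 : ℤ) ∣ (W'.apOfModel ℓ - W.apOfModel ℓ) := by
  by_cases h3 : W.ModRepIsIrreducible 3
  · exact conclusion_of_irreducible_three W hΔ hW h3
  · obtain ⟨W', hΔ', hW', h3', hφ⟩ := hcore W hΔ hW h5 h3
    exact conclusion_of_embedding (hrel W) (hrel W') h5 hΔ' hW' h3' hφ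

end Fermat.Agent.S52Top.Assembly
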