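/-
S52 programme, TOP glue (helper13): the short model `y² = x³ - 27 c₄ x - 54 c₆` of an integral
Weierstrass curve.

For `W : WeierstrassCurve ℤ` the classical substitution `x' = 36 x + 3 b₂`,
`y' = 108 (2 y + a₁ x + a₃)` identifies `W_ℚ` with `shortQ c₄ c₆` (the curve used by brick K3),
compatibly with the action of `Gal(ℚ̄/ℚ)` on `ℚ̄`-points.  Consequently a Galois-equivariant
embedding between the `n`-torsion of two short models gives `ApCong.EquivariantEmbedding`
between the integral models (the input of K6 / `Assembly.Core`).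
-/
import Mathlib
import Fermat.Agent.S05.TransportQ
import Fermat.Agent.S52K3.Iface
import Fermat.Agent.S52Top.ApCong

set_option autoImplicit false

open WeierstrassCurve WeierstrassCurve.Affine WeierstrassCurve.Affine.Point

namespace Fermat.Agent.S52Top.ShortModel

open Fermat.Agent.S52Top.ApCong

local notation "Qb" => AlgebraicClosure ℚ
local notation "GQ" => (AlgebraicClosure ℚ ≃ₐ[ℚ] AlgebraicClosure ℚ)

/-- The short model over `ℚ` attached to `c₄, c₆` (brick K3's curve). -/
abbrev short (c4 c6 : ℚ) : WeierstrassCurve ℚ := Fermat.Agent.S52K3.shortQ c4 c6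

/-- The change of variables `x' = 36 x + 3 b₂`, `y' = 216 y + 108 a₁ x + 108 a₃`. -/
def vc (W : WeierstrassCurve ℤ) : VariableChange ℚ :=
  ⟨Units.mk0 6 (by norm_num), 3 * (W.b₂ : ℚ), 3 * (W.a₁ : ℚ), 108 * (W.a₃ : ℚ)⟩

theorem map_eq_smul_short (W : WeierstrassCurve ℤ) :
    W.map (Int.castRingHom ℚ) = vc W • short (W.c₄ : ℚ) (W.c₆ : ℚ) := by
  ext
  · simp only [variableChange_a₁, map_a₁, Fermat.Agent.S52K3.shortQ, vc,
      Units.val_inv_eq_inv_val, Units.val_mk0, eq_intCast]
    ring
  · simp only [variableChange_a₂, map_a₂, Fermat.Agent.S52K3.shortQ, vc,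
      Units.val_inv_eq_inv_val, Units.val_mk0, eq_intCast, WeierstrassCurve.b₂]
    push_cast
    ring
  · simp only [variableChange_a₃, map_a₃, Fermat.Agent.S52K3.shortQ, vc,
      Units.val_inv_eq_inv_val, Units.val_mk0, eq_intCast]
    ring
  · simp only [variableChange_a₄, map_a₄, Fermat.Agent.S52K3.shortQ, vc,
      Units.val_inv_eq_inv_val, Units.val_mk0, eq_intCast,
      WeierstrassCurve.c₄, WeierstrassCurve.b₂, WeierstrassCurve.b₄]
    push_cast
    ring
  · simp only [variableChange_a₆, map_a₆, Fermat.Agent.S52K3.shortQ, vc,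
      Units.val_inv_eq_inv_val, Units.val_mk0, eq_intCast,
      WeierstrassCurve.c₄, WeierstrassCurve.c₆, WeierstrassCurve.b₂, WeierstrassCurve.b₄,
      WeierstrassCurve.b₆]
    push_cast
    ring

/-- The isomorphism `W(ℚ̄) ≃+ short(ℚ̄)`. -/
noncomputable def toShort (W : WeierstrassCurve ℤ) :
    ((W.map (Int.castRingHom ℚ))⁄Qb).Point ≃+ ((short (W.c₄ : ℚ) (W.c₆ : ℚ))⁄Qb).Point :=
  Fermat.Agent.S05.TransportQ.pointEquivBC Qb (map_eq_smul_short W)

theorem toShort_smul (W : WeierstrassCurve ℤ) (σ : GQ)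
    (P : ((W.map (Int.castRingHom ℚ))⁄Qb).Point) :
    toShort W (σ • P) = σ • toShort W P :=
  Fermat.Agent.S05.TransportQ.pointEquivBC_map (map_eq_smul_short W) σ.toAlgHom P

/-- The `n`-torsion of the short model. -/
abbrev TorsS (c4 c6 : ℚ) (n : ℕ) : Type :=
  Submodule.torsionBy ℤ ((short c4 c6)⁄Qb).Point (n : ℤ)

/-- A Galois-equivariant embedding between the `n`-torsion of two short models. -/
def ShortEmbedding (c4 c6 c4' c6' : ℚ) (n : ℕ) : Prop :=
  ∃ φ : TorsS c4 c6 n →+ TorsS c4' c6' n, Function.Injective φ ∧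
    ∀ (σ : GQ) (x : TorsS c4 c6 n), φ (σ • x) = σ • φ x

/-- restriction of `toShort` to `n`-torsion -/
noncomputable def toShortTors (W : WeierstrassCurve ℤ) (n : ℕ) :
    Tors W n →+ TorsS (W.c₄ : ℚ) (W.c₆ : ℚ) n where
  toFun x := ⟨toShort W x.1, by
    rw [Submodule.mem_torsionBy_iff, ← map_zsmul]
    have := x.2
    rw [Submodule.mem_torsionBy_iff] at this
    rw [this, _root_.map_zero]⟩
  map_zero' := Subtype.ext (_root_.map_zero (toShort W))
  map_add' x y := Subtype.ext (map_add (toShort W) x.1 y.1)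

/-- restriction of the inverse of `toShort` to `n`-torsion -/
noncomputable def ofShortTors (W : WeierstrassCurve ℤ) (n : ℕ) :
    TorsS (W.c₄ : ℚ) (W.c₆ : ℚ) n →+ Tors W n where
  toFun x := ⟨(toShort W).symm x.1, by
    rw [Submodule.mem_torsionBy_iff, ← map_zsmul]
    have := x.2
    rw [Submodule.mem_torsionBy_iff] at this
    rw [this, _root_.map_zero]⟩
  map_zero' := Subtype.ext (_root_.map_zero (toShort W).symm)
  map_add' x y := Subtype.ext (map_add (toShort W).symm x.1 y.1)

theorem toShortTors_injective (W : WeierstrassCurve ℤ) (n : ℕ) :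
    Function.Injective (toShortTors W n) := by
  intro x y h
  apply Subtype.ext
  apply (toShort W).injective
  exact congrArg Subtype.val h

theorem ofShortTors_injective (W : WeierstrassCurve ℤ) (n : ℕ) :
    Function.Injective (ofShortTors W n) := by
  intro x y h
  apply Subtype.ext
  apply (toShort W).symm.injective
  exact congrArg Subtype.val h

theorem toShortTors_smul (W : WeierstrassCurve ℤ) (n : ℕ) (σ : GQ) (x : Tors W n) :
    toShortTors W n (σ • x) = σ • toShortTors W n x :=
  Subtype.ext (toShort_smul W σ x.1)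

theorem ofShortTors_smul (W : WeierstrassCurve ℤ) (n : ℕ) (σ : GQ)
    (x : TorsS (W.c₄ : ℚ) (W.c₆ : ℚ) n) :
    ofShortTors W n (σ • x) = σ • ofShortTors W n x := by
  apply Subtype.ext
  change (toShort W).symm (σ • x.1) = σ • (toShort W).symm x.1
  rw [AddEquiv.symm_apply_eq, toShort_smul, AddEquiv.apply_symm_apply]

/-- **From short models to integral models.** -/
theorem embedding_of_short {W W' : WeierstrassCurve ℤ} {n : ℕ}
    (h : ShortEmbedding (W.c₄ : ℚ) (W.c₆ : ℚ) (W'.c₄ : ℚ) (W'.c₆ : ℚ) n) :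
    EquivariantEmbedding W W' n := by
  obtain ⟨φ, hinj, hequiv⟩ := h
  refine ⟨((ofShortTors W' n).comp φ).comp (toShortTors W n),
    (ofShortTors_injective W' n).comp (hinj.comp (toShortTors_injective W n)), fun σ x => ?_⟩
  simp only [AddMonoidHom.comp_apply]
  rw [toShortTors_smul, hequiv, ofShortTors_smul]

/-- Variant with the invariants given up to equality (convenient for `W'` produced by K4 with
`(W'.c₄ : ℚ) = C4.eval t`). -/
theorem embedding_of_short' {W W' : WeierstrassCurve ℤ} {n : ℕ} {c4 c6 c4' c6' : ℚ}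
    (h4 : (W.c₄ : ℚ) = c4) (h6 : (W.c₆ : ℚ) = c6) (h4' : (W'.c₄ : ℚ) = c4')
    (h6' : (W'.c₆ : ℚ) = c6') (h : ShortEmbedding c4 c6 c4' c6' n) :
    EquivariantEmbedding W W' n := by
  subst h4 h6 h4' h6'
  exact embedding_of_short h

end Fermat.Agent.S52Top.ShortModel
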