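/-
S52 programme, TOP (helper13): assembly of `Assembly.Core` from the outputs of the bricks
K3 (congruent family with a Galois-equivariant embedding of `5`-torsion on short models),
K4 (semistable integral models, `S52K4.Model.exists_semistable_model`) and
K5 (irreducibility of the `3`-torsion for parameters in a residue class modulo an auxiliary prime).

`FamilyData W` is the exact list of facts about the one-parameter family `t ↦ (C4 t, C6 t)` that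
the assembly consumes; `core_of_family` turns it into `Assembly.Core`, and
`s52_of_family` into the frozen conclusion of S52.
-/
import Mathlib
import Fermat.Agent.S52Top.Assembly
import Fermat.Agent.S52Top.ShortModel
import Fermat.Agent.S52K4.Model

set_option autoImplicit false

open WeierstrassCurve

namespace Fermat.Agent.S52Top.CoreAsm

open Fermat.Agent.S52Top.ApCong Fermat.Agent.S52Top.Assembly Fermat.Agent.S52Top.ShortModel
open Fermat.Agent.S52K4.Model Fermat.Agent.ES.Q58.TraceCong20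

/-- What the assembly needs to know about the family `E_t : y² = x³ - 27 C4(t) x - 54 C6(t)`
attached to `W` (bricks K3, K4b, K5). -/
structure FamilyData (W : WeierstrassCurve ℤ) : Type where
  /-- `c₄` of the member with parameter `t` -/
  C4 : ℤ → ℚ
  /-- `c₆` of the member with parameter `t` -/
  C6 : ℤ → ℚ
  h40 : C4 0 = W.c₄
  h60 : C6 0 = W.c₆
  cont4 : AdicCont C4
  cont6 : AdicCont C6
  /-- (K4b) outside `30 Δ(W)` the invariants of a member are never both divisible by `ℓ` -/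
  hloc : ∀ ℓ : ℕ, ℓ.Prime → ¬ (ℓ : ℤ) ∣ 30 * W.Δ → ∀ t x4 x6 : ℤ,
    (x4 : ℚ) = C4 t → (x6 : ℚ) = C6 t → ¬ ((ℓ : ℤ) ∣ x4 ∧ (ℓ : ℤ) ∣ x6)
  /-- (K3) Galois-equivariant embedding of the `5`-torsion of the short models -/
  emb : ∀ t : ℤ, C4 t ^ 3 - C6 t ^ 2 ≠ 0 →
    ShortEmbedding (W.c₄ : ℚ) (W.c₆ : ℚ) (C4 t) (C6 t) 5
  /-- (K5) for every modulus `N` there are an auxiliary prime `q ∤ N` and a residue class `tq`
  modulo `q` such that every integral model of a member with `t ≡ tq (mod q)` (of the shape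
  produced by K4) has irreducible `3`-torsion -/
  irr : ∀ N : ℤ, 0 < N → ∃ (q : ℕ) (tq : ℤ), q.Prime ∧ ¬ (q : ℤ) ∣ N ∧
    ∀ t : ℤ, (q : ℤ) ∣ t - tq → ∀ W' : WeierstrassCurve ℤ, W'.Δ ≠ 0 → W'.IsSemistableModel →
      (W'.c₄ : ℚ) = C4 t → (W'.c₆ : ℚ) = C6 t →
      W'.a₁ = W.a₁ → W'.a₂ = W.a₂ → W'.a₃ = W.a₃ →
      (30 * W.Δ ^ 2 ∣ W'.a₄ - W.a₄) → (30 * W.Δ ^ 2 ∣ W'.a₆ - W.a₆) →
      W'.ModRepIsIrreducible 3

/-- `1728 Δ = c₄³ - c₆²` over `ℚ`. -/
theorem c4_c6_ne_zero {W' : WeierstrassCurve ℤ} (hΔ' : W'.Δ ≠ 0) :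
    ((W'.c₄ : ℚ)) ^ 3 - ((W'.c₆ : ℚ)) ^ 2 ≠ 0 := by
  have h := W'.c_relation
  have h' : ((W'.c₄ : ℚ)) ^ 3 - ((W'.c₆ : ℚ)) ^ 2 = 1728 * (W'.Δ : ℚ) := by
    have := congrArg (Int.cast : ℤ → ℚ) h
    push_cast at this
    linarith
  rw [h']
  exact mul_ne_zero (by norm_num) (by exact_mod_cast hΔ')

/-- Chinese remainder: `t ≡ 0 (mod N)`, `t ≡ tq (mod q)` for a prime `q ∤ N`. -/
theorem exists_crt {N : ℤ} {q : ℕ} (hq : q.Prime) (hqN : ¬ (q : ℤ) ∣ N) (tq : ℤ) :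
    ∃ t : ℤ, N ∣ t ∧ (q : ℤ) ∣ t - tq := by
  have hcop : IsCoprime N (q : ℤ) :=
    (IsCoprime.symm ((Nat.prime_iff_prime_int.mp hq).coprime_iff_not_dvd.mpr hqN))
  obtain ⟨a, b, hab⟩ := hcop
  refine ⟨tq * (a * N), ⟨tq * a, by ring⟩, ⟨-(tq * b), ?_⟩⟩
  have : a * N = 1 - b * q := by linarith
  rw [this]
  ring

/-- The conclusion of `Core` for one `W` from a `FamilyData W`. -/
theorem exists_of_family (W : WeierstrassCurve ℤ) (hΔ : W.Δ ≠ 0) (hW : W.IsSemistableModel)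
    (F : FamilyData W) :
    ∃ W' : WeierstrassCurve ℤ, W'.Δ ≠ 0 ∧ W'.IsSemistableModel ∧ W'.ModRepIsIrreducible 3 ∧
      EquivariantEmbedding W W' 5 := by
  obtain ⟨N, hN, hmodel⟩ :=
    exists_semistable_model W hΔ hW F.C4 F.C6 F.h40 F.h60 F.cont4 F.cont6 F.hloc
  obtain ⟨q, tq, hq, hqN, hirr⟩ := F.irr N hN
  obtain ⟨t, hNt, hqt⟩ := exists_crt hq hqN tq
  obtain ⟨W', hΔ', hss', h4', h6', ha1, ha2, ha3, ha4, ha6⟩ := hmodel t hNt
  refine ⟨W', hΔ', hss', hirr t hqt W' hΔ' hss' h4' h6' ha1 ha2 ha3 ha4 ha6, ?_⟩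
  have hne : F.C4 t ^ 3 - F.C6 t ^ 2 ≠ 0 := by
    rw [← h4', ← h6']
    exact c4_c6_ne_zero hΔ'
  exact embedding_of_short' rfl rfl h4' h6' (F.emb t hne)

/-- **`Core` from the family bricks.** -/
theorem core_of_family
    (hfam : ∀ W : WeierstrassCurve ℤ, W.Δ ≠ 0 → W.IsSemistableModel →
      W.ModRepIsIrreducible 5 → ¬ W.ModRepIsIrreducible 3 → Nonempty (FamilyData W)) :
    Core := by
  intro W hΔ hW h5 h3
  obtain ⟨F⟩ := hfam W hΔ hW h5 h3
  exact exists_of_family W hΔ hW F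

/-- **S52 from `RelQbar` and the family bricks.** -/
theorem s52_of_family (hrel : ∀ W : WeierstrassCurve ℤ, RelQbar W)
    (hfam : ∀ W : WeierstrassCurve ℤ, W.Δ ≠ 0 → W.IsSemistableModel →
      W.ModRepIsIrreducible 5 → ¬ W.ModRepIsIrreducible 3 → Nonempty (FamilyData W))
    (W : WeierstrassCurve ℤ) (hΔ : W.Δ ≠ 0) (hW : W.IsSemistableModel)
    (h5 : W.ModRepIsIrreducible 5) :
    ∃ W' : WeierstrassCurve ℤ, W'.Δ ≠ 0 ∧ W'.IsSemistableModel ∧ W'.ModRepIsIrreducible 3 ∧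
      ∀ ℓ : ℕ, ℓ.Prime → W.IsGoodPrimeFor ℓ → W'.IsGoodPrimeFor ℓ → ℓ ≠ 5 →
        (5 : ℤ) ∣ (W'.apOfModel ℓ - W.apOfModel ℓ) :=
  s52_of_core hrel (core_of_family hfam) W hΔ hW h5

end Fermat.Agent.S52Top.CoreAsm
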