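/-
S52 programme, TOP glue (helper13): `ShortModel.ShortEmbedding` from two independent pairs of
`p`-torsion points on two short models `y² = x³ - 27 c₄ x - 54 c₆` on which every Galois element
acts through the same integer matrix.  (Short-model version of `GlueBases`; this is the shape in
which brick K3 naturally produces its output.)
-/
import Mathlib
import Fermat.Agent.S52Top.GlueBases
import Fermat.Agent.S52Top.ShortModel

set_option autoImplicit false

open WeierstrassCurve WeierstrassCurve.Affine WeierstrassCurve.Affine.Point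

namespace Fermat.Agent.S52Top.ShortGlue

open Fermat.Agent.S52Top.ApCong Fermat.Agent.S52Top.GlueBases Fermat.Agent.S52Top.ShortModel

local notation "Qb" => AlgebraicClosure ℚ
local notation "GQ" => (AlgebraicClosure ℚ ≃ₐ[ℚ] AlgebraicClosure ℚ)

/-- The discriminant of the short model. -/
theorem short_Δ (c4 c6 : ℚ) : (short c4 c6).Δ = 1259712 * (c4 ^ 3 - c6 ^ 2) := by
  simp only [WeierstrassCurve.Δ, WeierstrassCurve.b₂, WeierstrassCurve.b₄, WeierstrassCurve.b₆,
    WeierstrassCurve.b₈, Fermat.Agent.S52K3.shortQ]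
  ring

theorem short_Δ_Qbar_ne_zero {c4 c6 : ℚ} (hne : c4 ^ 3 - c6 ^ 2 ≠ 0) :
    ((short c4 c6)⁄Qb).Δ ≠ 0 := by
  intro h
  have h1 : ((short c4 c6).map (algebraMap ℚ Qb)).Δ = 0 := h
  rw [WeierstrassCurve.map_Δ] at h1
  have h2 := (map_eq_zero_iff _ (algebraMap ℚ Qb).injective).mp h1
  rw [short_Δ] at h2
  exact hne ((mul_eq_zero.mp h2).resolve_left (by norm_num))

theorem card_torsS {c4 c6 : ℚ} (hne : c4 ^ 3 - c6 ^ 2 ≠ 0) {p : ℕ} (hp : Odd p) :
    Nat.card (TorsS c4 c6 p) = p ^ 2 :=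
  Fermat.Agent.DivPoly.CardEq29.card_torsionBy_eq (short_Δ_Qbar_ne_zero hne) hp

theorem natCast_smul_torsS {c4 c6 : ℚ} {p : ℕ} (x : TorsS c4 c6 p) : (p : ℤ) • x = 0 :=
  Submodule.smul_torsionBy _ x

/-- Two independent pairs with the same Galois matrices give a `ShortEmbedding`. -/
theorem shortEmbedding_of_bases {c4 c6 c4' c6' : ℚ} (hne : c4 ^ 3 - c6 ^ 2 ≠ 0) {p : ℕ}
    (hp : p.Prime) (hp2 : p ≠ 2) (Q R : TorsS c4 c6 p) (Q' R' : TorsS c4' c6' p)
    (hind : IndepMod p Q R) (hind' : IndepMod p Q' R')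
    (hgal : ∀ σ : GQ, ∃ a b c d : ℤ, σ • Q = a • Q + b • R ∧ σ • R = c • Q + d • R ∧
      σ • Q' = a • Q' + b • R' ∧ σ • R' = c • Q' + d • R') :
    ShortEmbedding c4 c6 c4' c6' p := by
  have hcard := card_torsS hne (hp.odd_of_ne_two hp2)
  have hQ := natCast_smul_torsS Q
  have hR := natCast_smul_torsS R
  have hQ' := natCast_smul_torsS Q'
  have hR' := natCast_smul_torsS R'
  refine ⟨transfer hp hQ hR hind hcard hQ' hR',
    transfer_injective hp hQ hR hind hcard hQ' hR' hind', fun σ v => ?_⟩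
  obtain ⟨x, rfl⟩ := comb_surjective hp hQ hR hind hcard v
  obtain ⟨a, b, c, d, h1, h2, h3, h4⟩ := hgal σ
  have hz : ∀ (n : ℤ) (y : TorsS c4 c6 p), σ • (n • y) = n • (σ • y) := fun n y =>
    (DistribSMul.toAddMonoidHom (TorsS c4 c6 p) σ).map_zsmul n y
  have hz' : ∀ (n : ℤ) (y : TorsS c4' c6' p), σ • (n • y) = n • (σ • y) := fun n y =>
    (DistribSMul.toAddMonoidHom (TorsS c4' c6' p) σ).map_zsmul n y
  have e1 : σ • comb Q R x = comb Q R (x.1 * a + x.2 * c, x.1 * b + x.2 * d) := by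
    rw [comb_apply, comb_apply, smul_add, hz, hz, h1, h2]
    simp only [smul_add, add_smul, mul_smul]
    abel
  have e2 : σ • comb Q' R' x = comb Q' R' (x.1 * a + x.2 * c, x.1 * b + x.2 * d) := by
    rw [comb_apply, comb_apply, smul_add, hz', hz', h3, h4]
    simp only [smul_add, add_smul, mul_smul]
    abel
  rw [e1, transfer_comb, transfer_comb, e2]

/-- Package a point of the short model killed by `p` as an element of the torsion module. -/
def toTorsS {c4 c6 : ℚ} {p : ℕ} (Q : ((short c4 c6)⁄Qb).Point) (hQ : p • Q = 0) :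
    TorsS c4 c6 p :=
  ⟨Q, by rw [Submodule.mem_torsionBy_iff, Nat.cast_smul_eq_nsmul]; exact hQ⟩

/-- **K3 output shape ⟹ `ShortEmbedding`** (points of the short models over `ℚ̄`). -/
theorem shortEmbedding_of_points {c4 c6 c4' c6' : ℚ} (hne : c4 ^ 3 - c6 ^ 2 ≠ 0) {p : ℕ}
    (hp : p.Prime) (hp2 : p ≠ 2)
    (Q R : ((short c4 c6)⁄Qb).Point) (hQ : p • Q = 0) (hR : p • R = 0)
    (Q' R' : ((short c4' c6')⁄Qb).Point) (hQ' : p • Q' = 0) (hR' : p • R' = 0)
    (hind : IndepMod p Q R) (hind' : IndepMod p Q' R')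
    (hgal : ∀ σ : GQ, ∃ a b c d : ℤ, σ • Q = a • Q + b • R ∧ σ • R = c • Q + d • R ∧
      σ • Q' = a • Q' + b • R' ∧ σ • R' = c • Q' + d • R') :
    ShortEmbedding c4 c6 c4' c6' p := by
  refine shortEmbedding_of_bases hne hp hp2 (toTorsS Q hQ) (toTorsS R hR) (toTorsS Q' hQ')
    (toTorsS R' hR') ?_ ?_ ?_
  · intro i j h
    apply hind i j
    have := congrArg (Subtype.val) h
    simpa [toTorsS] using this
  · intro i j h
    apply hind' i j
    have := congrArg (Subtype.val) h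
    simpa [toTorsS] using this
  · intro σ
    obtain ⟨a, b, c, d, h1, h2, h3, h4⟩ := hgal σ
    refine ⟨a, b, c, d, Subtype.ext ?_, Subtype.ext ?_, Subtype.ext ?_, Subtype.ext ?_⟩
    · have e : ((σ • toTorsS Q hQ : TorsS c4 c6 p) : ((short c4 c6)⁄Qb).Point) = σ • Q := rfl
      rw [e, h1]; simp [toTorsS]
    · have e : ((σ • toTorsS R hR : TorsS c4 c6 p) : ((short c4 c6)⁄Qb).Point) = σ • R := rfl
      rw [e, h2]; simp [toTorsS]
    · have e : ((σ • toTorsS Q' hQ' : TorsS c4' c6' p) : ((short c4' c6')⁄Qb).Point) =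
          σ • Q' := rfl
      rw [e, h3]; simp [toTorsS]
    · have e : ((σ • toTorsS R' hR' : TorsS c4' c6' p) : ((short c4' c6')⁄Qb).Point) =
          σ • R' := rfl
      rw [e, h4]; simp [toTorsS]

end Fermat.Agent.S52Top.ShortGlue
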